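/-
TW programme (S56), brick C3-T1 (helper62), part 1.

The degree-`0` part of the long exact sequence of the level cohomology of `PT/PRO/LevelCoh28`:
for a short exact sequence `0 → A --φ--> B --ψ--> C → 0` of discrete modules,
`0 → A^G → B^G → C^G --δ⁰--> H¹(A) → H¹(B)` is exact, and the resulting Euler-characteristic
inequality for the nine-term sequence `0 → A^G → … → H²(B) → H²(C)` (NO `H³`):
`χ(B) ≤ χ(A) + χ(C)`, `χ = h⁰ - h¹ + h²`.
-/
import Mathlib
import Fermat.Agent.PT.PRO.LevelCoh28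

set_option autoImplicit false
set_option linter.unusedSectionVars false
set_option linter.style.haveILetI false

universe u

open CategoryTheory groupCohomology Module

namespace Fermat.Agent.TW.Tate62.H0LES

open Fermat.Agent.PT.PRO.LevelCoh28

variable {k G : Type u} [CommRing k] [Group G]

/-- `H⁰`: the invariants. -/
noncomputable abbrev H0 (A : Rep.{u} k G) : Submodule k A := A.ρ.invariants

theorem mem_H0_iff (A : Rep.{u} k G) (a : A) : a ∈ H0 A ↔ ∀ g, A.ρ g a = a :=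
  Representation.mem_invariants _ _

section Functoriality

variable {A B : Rep.{u} k G} (φ : A →ₗ[k] B) (hφ : ∀ g a, φ (A.ρ g a) = B.ρ g (φ a))

include hφ in
theorem map_mem_H0 {a : A} (ha : a ∈ H0 A) : φ a ∈ H0 B := by
  rw [mem_H0_iff] at ha ⊢
  intro g
  rw [← hφ, ha g]

/-- The map on invariants induced by an equivariant map. -/
noncomputable def mapH0 : H0 A →ₗ[k] H0 B :=
  (φ.comp (H0 A).subtype).codRestrict (H0 B) (fun a => map_mem_H0 φ hφ a.2)

@[simp]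
theorem coe_mapH0 (a : H0 A) : ((mapH0 φ hφ a : H0 B) : B) = φ (a : A) := rfl

theorem mapH0_injective (hinj : Function.Injective φ) : Function.Injective (mapH0 φ hφ) := by
  intro a a' h
  apply Subtype.ext
  apply hinj
  exact congrArg Subtype.val h

end Functoriality

section Connecting

variable (𝓑 : LevelBasis G) {A B C : Rep.{u} k G}
  (φ : A →ₗ[k] B) (hφ : ∀ g a, φ (A.ρ g a) = B.ρ g (φ a))
  (ψ : B →ₗ[k] C) (hψ : ∀ g b, ψ (B.ρ g b) = C.ρ g (ψ b))
  (hinj : Function.Injective φ) (hsurj : Function.Surjective ψ)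
  (hex : ∀ b, ψ b = 0 ↔ ∃ a, φ a = b) (hB : IsDiscrete 𝓑.sets B)

/-- The cochain representing `δ⁰ c`. -/
noncomputable def delta0Fun (c : C) : G → A :=
  pre φ ∘ (d₀₁ B).hom (Function.surjInv hsurj c)

include hψ hex in
theorem φ_comp_delta0Fun {c : C} (hc : c ∈ H0 C) :
    φ ∘ delta0Fun φ ψ hsurj c = (d₀₁ B).hom (Function.surjInv hsurj c) := by
  funext g
  refine φ_pre φ ψ hex ?_
  rw [d₀₁_hom_apply, map_sub, hψ, Function.surjInv_eq hsurj, (mem_H0_iff C c).1 hc g, sub_self]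

include hφ hinj hB in
/-- If `φ ∘ x = d⁰ b` then `x` is a level cocycle. -/
theorem mem_Z1_of_comp_eq_d₀₁ {b : B} {x : G → A} (hx : φ ∘ x = (d₀₁ B).hom b) :
    x ∈ Z1 𝓑 A := by
  refine mem_Z1_of 𝓑 A ?_ (isLevel₁_of_comp (𝓑 := 𝓑) φ hinj (hx ▸ isLevel₁_d₀₁ hB b))
  funext y
  apply hinj
  have h1 := congrFun (d₁₂_comp φ hφ x) y
  rw [hx] at h1
  have h2 := d₀₁_apply_mem_cocycles₁ b
  rw [cocycles₁, LinearMap.mem_ker] at h2
  rw [h2] at h1
  simp only [Function.comp_apply] at h1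
  rw [← h1]
  exact (map_zero φ).symm

include hφ hψ hinj hex hB in
theorem delta0Fun_mem_Z1 {c : C} (hc : c ∈ H0 C) : delta0Fun φ ψ hsurj c ∈ Z1 𝓑 A :=
  mem_Z1_of_comp_eq_d₀₁ 𝓑 φ hφ hinj hB (φ_comp_delta0Fun φ ψ hψ hsurj hex hc)

include hφ hψ hinj hex in
/-- **Characterisation of `δ⁰`**: for any lift `b` of `c` and any `x` with `φ ∘ x = d⁰ b`, the
difference with the canonical representative is a coboundary. -/
theorem delta0Fun_sub_mem {c : C} (hc : c ∈ H0 C) {b : B} (hbc : ψ b = c) {x : G → A}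
    (hx : φ ∘ x = (d₀₁ B).hom b) : delta0Fun φ ψ hsurj c - x ∈ coboundaries₁ A := by
  have h0 : ψ (Function.surjInv hsurj c - b) = 0 := by
    rw [map_sub, Function.surjInv_eq hsurj, hbc, sub_self]
  obtain ⟨a, ha⟩ := (hex _).1 h0
  refine ⟨a, ?_⟩
  funext g
  apply hinj
  have h1 := congrFun (d₀₁_comp φ hφ a) g
  have h2 := congrFun (φ_comp_delta0Fun φ ψ hψ hsurj hex hc) g
  have h3 := congrFun hx g
  simp only [Function.comp_apply] at h1 h2 h3
  rw [← h1, ha]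
  simp only [Pi.sub_apply, map_sub, h2, h3]

/-- `δ⁰ : C^G → H¹(A)`. -/
noncomputable def delta0 : H0 C →ₗ[k] H1 𝓑 A where
  toFun c := H1mk 𝓑 A ⟨delta0Fun φ ψ hsurj (c : C), delta0Fun_mem_Z1 𝓑 φ hφ ψ hψ hinj hsurj hex hB c.2⟩
  map_add' c c' := by
    rw [← map_add, ← sub_eq_zero, ← map_sub, H1mk_eq_zero_iff]
    have hx : φ ∘ (delta0Fun φ ψ hsurj (c : C) + delta0Fun φ ψ hsurj (c' : C)) =
        (d₀₁ B).hom (Function.surjInv hsurj (c : C) + Function.surjInv hsurj (c' : C)) := by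
      rw [map_add, ← φ_comp_delta0Fun φ ψ hψ hsurj hex c.2,
        ← φ_comp_delta0Fun φ ψ hψ hsurj hex c'.2]
      funext g
      simp
    have hbc : ψ (Function.surjInv hsurj (c : C) + Function.surjInv hsurj (c' : C)) =
        ((c + c' : H0 C) : C) := by
      simp [Function.surjInv_eq hsurj]
    exact delta0Fun_sub_mem φ hφ ψ hψ hinj hsurj hex (c + c').2 hbc hx
  map_smul' r c := by
    rw [RingHom.id_apply, ← map_smul, ← sub_eq_zero, ← map_sub, H1mk_eq_zero_iff]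
    have hx : φ ∘ (r • delta0Fun φ ψ hsurj (c : C)) =
        (d₀₁ B).hom (r • Function.surjInv hsurj (c : C)) := by
      rw [map_smul, ← φ_comp_delta0Fun φ ψ hψ hsurj hex c.2]
      funext g
      simp
    have hbc : ψ (r • Function.surjInv hsurj (c : C)) = ((r • c : H0 C) : C) := by
      simp [Function.surjInv_eq hsurj]
    exact delta0Fun_sub_mem φ hφ ψ hψ hinj hsurj hex (r • c).2 hbc hx

include hφ hψ hinj hex hB in
/-- **Characterisation of `δ⁰`** on classes. -/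
theorem delta0_eq (c : H0 C) {b : B} (hbc : ψ b = (c : C)) (x : ↥(Z1 𝓑 A))
    (hx : φ ∘ (x : G → A) = (d₀₁ B).hom b) :
    delta0 𝓑 φ hφ ψ hψ hinj hsurj hex hB c = H1mk 𝓑 A x := by
  show H1mk 𝓑 A _ = H1mk 𝓑 A x
  rw [← sub_eq_zero, ← map_sub, H1mk_eq_zero_iff]
  exact delta0Fun_sub_mem φ hφ ψ hψ hinj hsurj hex c.2 hbc hx

/-! ### Exactness -/

include hinj hex in
/-- Exactness at `B^G`. -/
theorem ker_mapH0 : LinearMap.ker (mapH0 ψ hψ) = LinearMap.range (mapH0 φ hφ) := by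
  ext b
  rw [LinearMap.mem_ker, LinearMap.mem_range]
  constructor
  · intro h
    have h' : ψ (b : B) = 0 := congrArg Subtype.val h
    obtain ⟨a, ha⟩ := (hex _).1 h'
    have haG : a ∈ H0 A := by
      rw [mem_H0_iff]
      intro g
      apply hinj
      rw [hφ, ha, (mem_H0_iff B _).1 b.2 g]
    exact ⟨⟨a, haG⟩, Subtype.ext ha⟩
  · rintro ⟨a, rfl⟩
    apply Subtype.ext
    exact ψ_φ φ ψ hex _

include hφ hψ hinj hex hB in
/-- Exactness at `C^G`. -/
theorem ker_delta0 :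
    LinearMap.ker (delta0 𝓑 φ hφ ψ hψ hinj hsurj hex hB) = LinearMap.range (mapH0 ψ hψ) := by
  ext c
  rw [LinearMap.mem_ker, LinearMap.mem_range]
  constructor
  · intro h
    have h' : H1mk 𝓑 A ⟨delta0Fun φ ψ hsurj (c : C),
        delta0Fun_mem_Z1 𝓑 φ hφ ψ hψ hinj hsurj hex hB c.2⟩ = 0 := h
    rw [H1mk_eq_zero_iff] at h'
    obtain ⟨a, ha⟩ := h'
    have hb : Function.surjInv hsurj (c : C) - φ a ∈ H0 B := by
      rw [mem_H0_iff]
      intro g
      have h1 := congrFun (φ_comp_delta0Fun φ ψ hψ hsurj hex c.2) g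
      have h2 := congrFun (d₀₁_comp φ hφ a) g
      have h3 := congrFun ha g
      simp only [Function.comp_apply] at h1 h2 h3
      rw [← h3, ← h2] at h1
      simp only [d₀₁_hom_apply] at h1
      rw [map_sub, sub_eq_iff_eq_add.1 h1]
      abel
    refine ⟨⟨_, hb⟩, Subtype.ext ?_⟩
    simp [Function.surjInv_eq hsurj, ψ_φ φ ψ hex]
  · rintro ⟨b, rfl⟩
    have hx : φ ∘ ((0 : ↥(Z1 𝓑 A)) : G → A) = (d₀₁ B).hom (b : B) := by
      funext g
      simp only [Function.comp_apply, d₀₁_hom_apply, (mem_H0_iff B _).1 b.2 g, sub_self]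
      exact map_zero φ
    rw [delta0_eq 𝓑 φ hφ ψ hψ hinj hsurj hex hB (mapH0 ψ hψ b) (b := (b : B)) rfl 0 hx, map_zero]

include hφ hψ hinj hex hB in
/-- Exactness at `H¹(A)`. -/
theorem ker_mapH1_left :
    LinearMap.ker (mapH1 (𝓑 := 𝓑) φ hφ) =
      LinearMap.range (delta0 𝓑 φ hφ ψ hψ hinj hsurj hex hB) := by
  ext y
  obtain ⟨x, rfl⟩ := H1mk_surjective 𝓑 A y
  rw [LinearMap.mem_ker, mapH1_mk, H1mk_eq_zero_iff, LinearMap.mem_range]
  constructor
  · rintro ⟨b, hb⟩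
    have hx : φ ∘ (x : G → A) = (d₀₁ B).hom b := hb.symm
    have hc : ψ b ∈ H0 C := by
      rw [mem_H0_iff]
      intro g
      have h1 := congrFun hx g
      simp only [Function.comp_apply, d₀₁_hom_apply] at h1
      have h2 : ψ (B.ρ g b - b) = 0 := by rw [← h1]; exact ψ_φ φ ψ hex _
      rw [map_sub, hψ, sub_eq_zero] at h2
      exact h2
    exact ⟨⟨ψ b, hc⟩, delta0_eq 𝓑 φ hφ ψ hψ hinj hsurj hex hB ⟨ψ b, hc⟩ rfl x hx⟩
  · rintro ⟨c, hc⟩
    have h1 : mapH1 (𝓑 := 𝓑) φ hφ (delta0 𝓑 φ hφ ψ hψ hinj hsurj hex hB c) = 0 := by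
      show mapH1 (𝓑 := 𝓑) φ hφ (H1mk 𝓑 A _) = 0
      rw [mapH1_mk, H1mk_eq_zero_iff]
      exact ⟨Function.surjInv hsurj (c : C), (φ_comp_delta0Fun φ ψ hψ hsurj hex c.2).symm⟩
    rw [hc, mapH1_mk, H1mk_eq_zero_iff] at h1
    exact h1

end Connecting

end Fermat.Agent.TW.Tate62.H0LES
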