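/-
TW programme (S56), brick C3-T1 (helper62), part 2.

Sub-additivity of the truncated Euler characteristic `χ = h⁰ - h¹ + h²` of the level cohomology of
`PT/PRO/LevelCoh28` on short exact sequences of discrete modules over a field:
`χ(B) ≤ χ(A) + χ(C)` (the defect is `dim coker (H²(B) → H²(C))`; no `H³` is needed).
-/
import Mathlib
import Fermat.Agent.TW.Tate62.H0LES

set_option autoImplicit false
set_option linter.unusedSectionVars false
set_option linter.style.haveILetI false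

universe u

open CategoryTheory Module

namespace Fermat.Agent.TW.Tate62.EulerIneq

open Fermat.Agent.PT.PRO.LevelCoh28 Fermat.Agent.TW.Tate62.H0LES

section LinearAlgebra

variable {k : Type*} [Field k] {V₀ V₁ V₂ : Type*} [AddCommGroup V₀] [Module k V₀]
  [AddCommGroup V₁] [Module k V₁] [AddCommGroup V₂] [Module k V₂]

/-- Rank–nullity at an exact spot. -/
theorem finrank_eq_of_exact (f₀ : V₀ →ₗ[k] V₁) (f₁ : V₁ →ₗ[k] V₂)
    (h : LinearMap.ker f₁ = LinearMap.range f₀) [FiniteDimensional k V₁] :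
    finrank k V₁ = finrank k (LinearMap.range f₀) + finrank k (LinearMap.range f₁) := by
  have := LinearMap.finrank_range_add_finrank_ker f₁
  rw [h] at this
  omega

theorem finrank_eq_of_injective (f₀ : V₀ →ₗ[k] V₁) (h : Function.Injective f₀) :
    finrank k V₀ = finrank k (LinearMap.range f₀) :=
  (LinearMap.finrank_range_of_inj h).symm

theorem finrank_range_le' (f₁ : V₁ →ₗ[k] V₂) [FiniteDimensional k V₂] :
    finrank k (LinearMap.range f₁) ≤ finrank k V₂ :=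
  Submodule.finrank_le _

end LinearAlgebra

variable {k G : Type u} [Field k] [Group G]

/-- The truncated Euler characteristic `h⁰ - h¹ + h²` of level cohomology. -/
noncomputable def chi (𝓑 : LevelBasis G) (A : Rep.{u} k G) : ℤ :=
  (finrank k (H0 A) : ℤ) - finrank k (H1 𝓑 A) + finrank k (H2 𝓑 A)

variable (𝓑 : LevelBasis G) {A B C : Rep.{u} k G}
  (φ : A →ₗ[k] B) (hφ : ∀ g a, φ (A.ρ g a) = B.ρ g (φ a))
  (ψ : B →ₗ[k] C) (hψ : ∀ g b, ψ (B.ρ g b) = C.ρ g (ψ b))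
  (hinj : Function.Injective φ) (hsurj : Function.Surjective ψ)
  (hex : ∀ b, ψ b = 0 ↔ ∃ a, φ a = b) (hB : IsDiscrete 𝓑.sets B)

include hφ hψ hinj hsurj hex hB in
/-- **Sub-additivity of the truncated Euler characteristic.** -/
theorem chi_le [FiniteDimensional k A] [FiniteDimensional k B] [FiniteDimensional k C]
    [FiniteDimensional k (H1 𝓑 A)] [FiniteDimensional k (H1 𝓑 B)] [FiniteDimensional k (H1 𝓑 C)]
    [FiniteDimensional k (H2 𝓑 A)] [FiniteDimensional k (H2 𝓑 B)] [FiniteDimensional k (H2 𝓑 C)] :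
    chi 𝓑 B ≤ chi 𝓑 A + chi 𝓑 C := by
  have e0 := finrank_eq_of_injective (mapH0 φ hφ) (mapH0_injective φ hφ hinj)
  have e1 := finrank_eq_of_exact (mapH0 φ hφ) (mapH0 ψ hψ) (ker_mapH0 φ hφ ψ hψ hinj hex)
  have e2 := finrank_eq_of_exact (mapH0 ψ hψ) (delta0 𝓑 φ hφ ψ hψ hinj hsurj hex hB)
    (ker_delta0 𝓑 φ hφ ψ hψ hinj hsurj hex hB)
  have e3 := finrank_eq_of_exact (delta0 𝓑 φ hφ ψ hψ hinj hsurj hex hB) (mapH1 (𝓑 := 𝓑) φ hφ)
    (ker_mapH1_left 𝓑 φ hφ ψ hψ hinj hsurj hex hB)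
  have e4 := finrank_eq_of_exact (mapH1 (𝓑 := 𝓑) φ hφ) (mapH1 (𝓑 := 𝓑) ψ hψ)
    (ker_mapH1 φ hφ ψ hψ hinj hsurj hex hB)
  have e5 := finrank_eq_of_exact (mapH1 (𝓑 := 𝓑) ψ hψ) (delta φ hφ ψ hψ hinj hsurj hex hB)
    (ker_delta φ hφ ψ hψ hinj hsurj hex hB)
  have e6 := finrank_eq_of_exact (delta φ hφ ψ hψ hinj hsurj hex hB) (mapH2 (𝓑 := 𝓑) φ hφ)
    (ker_mapH2 φ hφ ψ hψ hinj hsurj hex hB)
  have e7 := finrank_eq_of_exact (mapH2 (𝓑 := 𝓑) φ hφ) (mapH2 (𝓑 := 𝓑) ψ hψ)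
    (ker_mapH2' φ hφ ψ hψ hinj hsurj hex hB)
  have e8 := finrank_range_le' (mapH2 (𝓑 := 𝓑) ψ hψ)
  unfold chi
  omega

end Fermat.Agent.TW.Tate62.EulerIneq
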