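/-
TW programme (S56), brick C3-T1 (helper62), part 3.

**Additivity of the truncated Euler characteristic** `χ = h⁰ - h¹ + h²` of level cohomology on
short exact sequences of finite-dimensional discrete modules, from
* sub-additivity (`EulerIneq.chi_le`, valid without `H³`), applied to the sequence and to its
  twisted dual `0 → C^* → B^* → A^* → 0`, `X^* = X.dualTwist ε`;
* the symmetric relation `(SYM) : χ(X) + χ(X^*) = - dim X` (Poitou–Tate nine-term sequence in
  Euler-characteristic form), taken as a hypothesis.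
-/
import Mathlib
import Fermat.Prelude.Def_GroupCohomology_Selmer
import Fermat.Agent.TW.Tate62.EulerIneq

set_option autoImplicit false
set_option linter.unusedSectionVars false
set_option linter.style.haveILetI false

universe u

open CategoryTheory Module

namespace Fermat.Agent.TW.Tate62.ChiAdditive

open Fermat.Agent.PT.PRO.LevelCoh28 Fermat.Agent.TW.Tate62.H0LES Fermat.Agent.TW.Tate62.EulerIneq

variable {k G : Type u} [Field k] [Group G]

/-! ### Discreteness of finite-dimensional modules -/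

/-- A finite-dimensional discrete module is fixed pointwise by a normal member of the basis. -/
theorem exists_normal_acting_trivially {𝓤 : Set (Subgroup G)} (h𝓤 : IsLevelBasis 𝓤)
    {X : Rep.{u} k G} [FiniteDimensional k X] (hX : IsDiscrete 𝓤 X) :
    ∃ U ∈ 𝓤, U.Normal ∧ ∀ s ∈ U, ∀ x : X, X.ρ s x = x := by
  classical
  let b := Module.finBasis k X
  obtain ⟨U, hU, hn, hfix⟩ := hX.exists_fixing h𝓤 (Set.finite_range b)
  refine ⟨U, hU, hn, fun s hs x => ?_⟩
  have h1 : (X.ρ s : X →ₗ[k] X) = LinearMap.id := by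
    apply b.ext
    intro i
    exact hfix s hs (b i) ⟨i, rfl⟩
  rw [h1]
  rfl

/-- A character which is trivial on a member of the basis. -/
def IsLevelChar (𝓤 : Set (Subgroup G)) (ε : G →* kˣ) : Prop :=
  ∃ U ∈ 𝓤, ∀ s ∈ U, ε s = 1

theorem isDiscrete_dualTwist {𝓤 : Set (Subgroup G)} (h𝓤 : IsLevelBasis 𝓤) {ε : G →* kˣ}
    (hε : IsLevelChar 𝓤 ε) {X : Rep.{u} k G} [FiniteDimensional k X] (hX : IsDiscrete 𝓤 X) :
    IsDiscrete 𝓤 (X.dualTwist ε) := by
  obtain ⟨U, hU, -, hfix⟩ := exists_normal_acting_trivially h𝓤 hX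
  obtain ⟨V, hV, hε⟩ := hε
  obtain ⟨W, hW, hWle⟩ := h𝓤.directed U hU V hV
  intro f
  refine ⟨W, hW, fun s hs => ?_⟩
  rw [Rep.dualTwist_ρ_apply, hε s (hWle hs).2, Units.val_one, one_smul]
  apply LinearMap.ext
  intro x
  rw [LinearMap.comp_apply, hfix s⁻¹ (U.inv_mem (hWle hs).1)]

/-! ### Sub- and quotient modules of discrete modules -/

theorem isDiscrete_of_injective {𝓤 : Set (Subgroup G)} {A B : Rep.{u} k G} (φ : A →ₗ[k] B)
    (hφ : ∀ g a, φ (A.ρ g a) = B.ρ g (φ a)) (hinj : Function.Injective φ)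
    (hB : IsDiscrete 𝓤 B) : IsDiscrete 𝓤 A := by
  intro a
  obtain ⟨U, hU, h⟩ := hB (φ a)
  exact ⟨U, hU, fun s hs => hinj (by rw [hφ, h s hs])⟩

theorem isDiscrete_of_surjective {𝓤 : Set (Subgroup G)} {B C : Rep.{u} k G} (ψ : B →ₗ[k] C)
    (hψ : ∀ g b, ψ (B.ρ g b) = C.ρ g (ψ b)) (hsurj : Function.Surjective ψ)
    (hB : IsDiscrete 𝓤 B) : IsDiscrete 𝓤 C := by
  intro c
  obtain ⟨b, rfl⟩ := hsurj c
  obtain ⟨U, hU, h⟩ := hB b
  exact ⟨U, hU, fun s hs => by rw [← hψ, h s hs]⟩

/-! ### The twisted dual of a short exact sequence -/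

section Dual

variable {A B : Rep.{u} k G} (φ : A →ₗ[k] B) (hφ : ∀ g a, φ (A.ρ g a) = B.ρ g (φ a))
  (ε : G →* kˣ)

/-- The transpose of an equivariant map, as a map between twisted duals. -/
def dualTwistMap : (B.dualTwist ε) →ₗ[k] (A.dualTwist ε) := φ.dualMap

include hφ in
theorem dualTwistMap_equivariant (g : G) (f : B.dualTwist ε) :
    dualTwistMap φ ε ((B.dualTwist ε).ρ g f) = (A.dualTwist ε).ρ g (dualTwistMap φ ε f) := by
  rw [Rep.dualTwist_ρ_apply, Rep.dualTwist_ρ_apply]
  apply LinearMap.ext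
  intro a
  simp only [dualTwistMap, LinearMap.dualMap_apply, LinearMap.smul_apply, LinearMap.comp_apply,
    hφ]

theorem dualTwistMap_injective (hsurj : Function.Surjective φ) :
    Function.Injective (dualTwistMap φ ε) :=
  LinearMap.dualMap_injective_of_surjective hsurj

theorem dualTwistMap_surjective (hinj : Function.Injective φ) :
    Function.Surjective (dualTwistMap φ ε) :=
  LinearMap.dualMap_surjective_of_injective hinj

end Dual

theorem dualTwistMap_exact {A B C : Rep.{u} k G} (φ : A →ₗ[k] B) (ψ : B →ₗ[k] C)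
    (hex : ∀ b, ψ b = 0 ↔ ∃ a, φ a = b) (ε : G →* kˣ) (f : B.dualTwist ε) :
    dualTwistMap φ ε f = 0 ↔ ∃ f' : C.dualTwist ε, dualTwistMap ψ ε f' = f := by
  have hker : LinearMap.ker ψ = LinearMap.range φ := by
    ext b
    rw [LinearMap.mem_ker, LinearMap.mem_range]
    exact hex b
  have h1 : LinearMap.range ψ.dualMap = (LinearMap.ker ψ).dualAnnihilator :=
    LinearMap.range_dualMap_eq_dualAnnihilator_ker ψ
  have h2 : LinearMap.ker φ.dualMap = (LinearMap.range φ).dualAnnihilator :=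
    LinearMap.ker_dualMap_eq_dualAnnihilator_range φ
  have h3 : LinearMap.ker φ.dualMap = LinearMap.range ψ.dualMap := by rw [h1, h2, hker]
  have h4 : (f : Module.Dual k B) ∈ LinearMap.ker φ.dualMap ↔
      (f : Module.Dual k B) ∈ LinearMap.range ψ.dualMap := by rw [h3]
  rw [LinearMap.mem_ker, LinearMap.mem_range] at h4
  exact h4

/-! ### Additivity -/

variable (𝓑 : LevelBasis G) (ε : G →* kˣ)

/-- Finiteness of level cohomology of finite-dimensional discrete modules. -/
def FinCoh : Prop :=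
  ∀ X : Rep.{u} k G, FiniteDimensional k X → IsDiscrete 𝓑.sets X →
    FiniteDimensional k (H1 𝓑 X) ∧ FiniteDimensional k (H2 𝓑 X)

/-- The symmetric Euler-characteristic relation `χ(X) + χ(X^*) = - dim X`. -/
def SymRel : Prop :=
  ∀ X : Rep.{u} k G, FiniteDimensional k X → IsDiscrete 𝓑.sets X →
    chi 𝓑 X + chi 𝓑 (X.dualTwist ε) = -(finrank k X : ℤ)

variable {𝓑 ε}

/-- **Additivity of `χ`** on short exact sequences, from sub-additivity and the symmetric
relation. -/
theorem chi_additive (hε : IsLevelChar 𝓑.sets ε) (hFIN : FinCoh (k := k) 𝓑)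
    (hSYM : SymRel (k := k) 𝓑 ε) {A B C : Rep.{u} k G}
    (φ : A →ₗ[k] B) (hφ : ∀ g a, φ (A.ρ g a) = B.ρ g (φ a))
    (ψ : B →ₗ[k] C) (hψ : ∀ g b, ψ (B.ρ g b) = C.ρ g (ψ b))
    (hinj : Function.Injective φ) (hsurj : Function.Surjective ψ)
    (hex : ∀ b, ψ b = 0 ↔ ∃ a, φ a = b) [FiniteDimensional k B]
    (hB : IsDiscrete 𝓑.sets B) : chi 𝓑 B = chi 𝓑 A + chi 𝓑 C := by
  haveI hAfd : FiniteDimensional k A := FiniteDimensional.of_injective φ hinj
  haveI hCfd : FiniteDimensional k C := FiniteDimensional.of_surjective ψ hsurj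
  have hA : IsDiscrete 𝓑.sets A := isDiscrete_of_injective φ hφ hinj hB
  have hC : IsDiscrete 𝓑.sets C := isDiscrete_of_surjective ψ hψ hsurj hB
  have hA' := isDiscrete_dualTwist 𝓑.isBasis hε hA
  have hB' := isDiscrete_dualTwist 𝓑.isBasis hε hB
  have hC' := isDiscrete_dualTwist 𝓑.isBasis hε hC
  haveI hAd : FiniteDimensional k (A.dualTwist ε) := inferInstanceAs (FiniteDimensional k (Module.Dual k A))
  haveI hBd : FiniteDimensional k (B.dualTwist ε) := inferInstanceAs (FiniteDimensional k (Module.Dual k B))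
  haveI hCd : FiniteDimensional k (C.dualTwist ε) := inferInstanceAs (FiniteDimensional k (Module.Dual k C))
  obtain ⟨_, _⟩ := hFIN A hAfd hA
  obtain ⟨_, _⟩ := hFIN B inferInstance hB
  obtain ⟨_, _⟩ := hFIN C hCfd hC
  obtain ⟨_, _⟩ := hFIN _ hAd hA'
  obtain ⟨_, _⟩ := hFIN _ hBd hB'
  obtain ⟨_, _⟩ := hFIN _ hCd hC'
  have i1 := chi_le 𝓑 φ hφ ψ hψ hinj hsurj hex hB
  have i2 := chi_le 𝓑 (dualTwistMap ψ ε) (dualTwistMap_equivariant ψ hψ ε)
    (dualTwistMap φ ε) (dualTwistMap_equivariant φ hφ ε)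
    (dualTwistMap_injective ψ ε hsurj) (dualTwistMap_surjective φ ε hinj)
    (dualTwistMap_exact φ ψ hex ε) hB'
  have sA := hSYM A hAfd hA
  have sB := hSYM B inferInstance hB
  have sC := hSYM C hCfd hC
  have hdim : finrank k B = finrank k A + finrank k C := by
    have h1 := LinearMap.finrank_range_add_finrank_ker ψ
    have h2 : LinearMap.ker ψ = LinearMap.range φ := by
      ext b
      rw [LinearMap.mem_ker, LinearMap.mem_range]
      exact hex b
    rw [h2, LinearMap.finrank_range_of_inj hinj, LinearMap.range_eq_top.2 hsurj,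
      finrank_top] at h1
    omega
  omega

end Fermat.Agent.TW.Tate62.ChiAdditive
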