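/-
TW programme (S56), brick C3 (helper62): the Tate defect `dT S M` of GWIface97 and its formal
properties.

`dT S M = h⁰(Γ,M) + h²(G_S,M) + dim M - h¹(G_S,M) - h⁰(ℝ,M)`  (`GlobalEulerLe S M ↔ 0 ≤ dT S M`).

* complex conjugation acts on `μ_p` by `-1`; for `p` odd `h⁰(ℝ,M) + h⁰(ℝ,M^*) = dim M`, and
  `h⁰(ℝ,·)` is additive on short exact sequences;
* `dT` is sub-additive on short exact sequences (from `EulerIneq.chi_le`);
* `dT S M + dT S M^* = χ(M) + χ(M^*) + dim M`.
-/
import Mathlib
import Fermat.Agent.TW.GWIface97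
import Fermat.Agent.TW.Tate62.ChiAdditive

set_option autoImplicit false
set_option linter.unusedSectionVars false
set_option linter.style.haveILetI false

open Module ExtCitation

namespace Fermat.Agent.TW.Tate62.DTate

open Fermat.Agent.PT.PRO Fermat.Agent.PT.PRO.LevelCoh28 Fermat.Agent.PT.BR.LevelBridge13
open Fermat.Agent.TW.GWIface97 Fermat.Agent.TW.Tate62.H0LES Fermat.Agent.TW.Tate62.EulerIneq
open Fermat.Agent.TW.Tate62.ChiAdditive

local notation "Qbar" => AlgebraicClosure ℚ
local notation "Γ" => (AlgebraicClosure ℚ ≃ₐ[ℚ] AlgebraicClosure ℚ)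

/-! ### Involutions in odd characteristic -/

section Involution

variable {k V : Type*} [Field k] [AddCommGroup V] [Module k V]

/-- For an involution `τ` in characteristic `≠ 2`, the `±1`-eigenspaces have complementary
dimensions. -/
theorem finrank_ker_sub_one_add_finrank_ker_add_one [FiniteDimensional k V] (h2 : (2 : k) ≠ 0)
    (τ : V →ₗ[k] V) (hτ : τ ∘ₗ τ = LinearMap.id) :
    finrank k (LinearMap.ker (τ - 1)) + finrank k (LinearMap.ker (τ + 1)) = finrank k V := by
  have hττ : ∀ v, τ (τ v) = v := fun v => by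
    have := LinearMap.congr_fun hτ v
    simpa using this
  set P : V →ₗ[k] V := (2 : k)⁻¹ • (1 + τ) with hP
  have h1 : LinearMap.range P = LinearMap.ker (τ - 1) := by
    ext v
    rw [LinearMap.mem_range, LinearMap.mem_ker]
    constructor
    · rintro ⟨w, rfl⟩
      simp only [hP, LinearMap.smul_apply, LinearMap.add_apply, Module.End.one_apply,
        LinearMap.sub_apply, map_smul, map_add, hττ]
      have h0 : τ w - w + (w - τ w) = 0 := by abel
      rw [h0, smul_zero]
    · intro hv
      have hv' : τ v = v := by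
        simpa [sub_eq_zero] using hv
      refine ⟨v, ?_⟩
      simp only [hP, LinearMap.smul_apply, LinearMap.add_apply, Module.End.one_apply, hv']
      rw [← two_smul k v, smul_smul, inv_mul_cancel₀ h2, one_smul]
  have h2' : LinearMap.ker P = LinearMap.ker (τ + 1) := by
    ext v
    rw [LinearMap.mem_ker, LinearMap.mem_ker]
    simp only [hP, LinearMap.smul_apply, LinearMap.add_apply, Module.End.one_apply]
    rw [smul_eq_zero, add_comm]
    constructor
    · rintro (h | h)
      · exact absurd (inv_eq_zero.1 h) h2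
      · exact h
    · exact fun h => Or.inr h
  have := LinearMap.finrank_range_add_finrank_ker P
  rw [h1, h2'] at this
  exact this

/-- The fixed space of the transpose has the dimension of the fixed space. -/
theorem finrank_ker_dualMap_sub_one [FiniteDimensional k V] (τ : V →ₗ[k] V) :
    finrank k (LinearMap.ker (τ.dualMap - 1)) = finrank k (LinearMap.ker (τ - 1)) := by
  have e : τ.dualMap - 1 = (τ - 1).dualMap := by
    ext f v
    simp [LinearMap.dualMap_apply]
  rw [e]
  have h1 := LinearMap.finrank_range_add_finrank_ker (τ - 1)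
  have h2 := LinearMap.finrank_range_add_finrank_ker (τ - 1).dualMap
  have h3 := LinearMap.finrank_range_dualMap_eq_finrank_range (τ - 1)
  have h4 : finrank k (Module.Dual k V) = finrank k V := Subspace.dual_finrank_eq
  omega

end Involution

/-! ### Complex conjugation and the cyclotomic character -/

variable {p : ℕ} [Fact p.Prime]

theorem complexConjugation_root {m : ℕ} (hm : m ≠ 0) {ζ : Qbar} (hζ : ζ ^ m = 1) :
    complexConjugation ζ = ζ⁻¹ := by
  apply complexEmbedding.toRingHom.injective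
  change complexEmbedding (complexConjugation ζ) = complexEmbedding ζ⁻¹
  rw [complexEmbedding_complexConjugation, map_inv₀]
  have h1 : complexEmbedding ζ ^ m = 1 := by rw [← map_pow, hζ, map_one]
  have h2 : ‖complexEmbedding ζ‖ = 1 := Complex.norm_eq_one_of_pow_eq_one h1 hm
  exact (Complex.inv_eq_conj h2).symm

/-- Complex conjugation acts by `-1` on `μ_p`. -/
theorem cycloChar_complexConjugation :
    ((cycloChar p complexConjugation : (ZMod p)ˣ) : ZMod p) = -1 := by
  haveI : NeZero p := ⟨(Fact.out : p.Prime).ne_zero⟩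
  have hp : p ≠ 0 := (Fact.out : p.Prime).ne_zero
  obtain ⟨ζ, hζ⟩ := HasEnoughRootsOfUnity.exists_primitiveRoot Qbar p
  set t : Qbarˣ := (hζ.isUnit hp).unit with ht
  have hval : (t : Qbar) = ζ := rfl
  have hmem : t ∈ rootsOfUnity p Qbar := by
    rw [mem_rootsOfUnity]
    apply Units.ext
    rw [Units.val_pow_eq_pow_val, hval, hζ.pow_eq_one, Units.val_one]
  have hspec := modularCyclotomicCharacter.spec Qbar (card_rootsOfUnity_eq_self p)
    ((complexConjugation : Γ) : Qbar ≃+* Qbar) hmem
  have h1 : complexConjugation ζ = ζ⁻¹ := complexConjugation_root hp hζ.pow_eq_one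
  set e : ℕ := cycloExp p complexConjugation with he
  have h2 : ζ ^ e = ζ⁻¹ := by
    have : ((complexConjugation : Γ) : Qbar ≃+* Qbar) (t : Qbar) = ((t ^ e : Qbarˣ) : Qbar) :=
      hspec
    rw [Units.val_pow_eq_pow_val, hval] at this
    rw [← this]
    exact h1
  have h3 : ζ ^ (e + 1) = 1 := by
    rw [pow_succ, h2, inv_mul_cancel₀ (hζ.ne_zero hp)]
  have h4 : p ∣ e + 1 := (hζ.pow_eq_one_iff_dvd _).1 h3
  have h5 : ((e + 1 : ℕ) : ZMod p) = 0 := (ZMod.natCast_eq_zero_iff _ _).2 h4
  rw [coe_cycloChar]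
  push_cast at h5
  exact eq_neg_of_add_eq_zero_left h5


theorem two_ne_zero_zmod (hp2 : p ≠ 2) : (2 : ZMod p) ≠ 0 := by
  intro h
  have h1 : ((2 : ℕ) : ZMod p) = 0 := by exact_mod_cast h
  rw [ZMod.natCast_eq_zero_iff] at h1
  have hp : p.Prime := Fact.out
  rcases (Nat.dvd_prime Nat.prime_two).1 h1 with h | h
  · exact hp.one_lt.ne' h
  · exact hp2 h

/-- Complex conjugation acts as an involution. -/
theorem ρ_conj_comp_ρ_conj (M : Rep.{0} (ZMod p) Γ) :
    (M.ρ complexConjugation) ∘ₗ (M.ρ complexConjugation) = LinearMap.id := by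
  have h : M.ρ complexConjugation * M.ρ complexConjugation = 1 := by
    rw [← map_mul, complexConjugation_mul_self, map_one]
  exact h

/-- `h⁰(ℝ, M) + h⁰(ℝ, M^*) = dim M` for `p` odd. -/
theorem h0c_add_h0c_dual (hp2 : p ≠ 2) (M : Rep.{0} (ZMod p) Γ) [FiniteDimensional (ZMod p) M] :
    h0c M + h0c (dual M) = finrank (ZMod p) M := by
  set τ : M →ₗ[ZMod p] M := M.ρ complexConjugation with hτ
  have hinv : τ ∘ₗ τ = LinearMap.id := ρ_conj_comp_ρ_conj M
  have hinv' : τ.dualMap ∘ₗ τ.dualMap = LinearMap.id := by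
    rw [LinearMap.dualMap_comp_dualMap, hinv, LinearMap.dualMap_id]
  have h1 := finrank_ker_sub_one_add_finrank_ker_add_one (two_ne_zero_zmod hp2) τ.dualMap hinv'
  have h2 := finrank_ker_dualMap_sub_one τ
  have h3 : finrank (ZMod p) (Module.Dual (ZMod p) M) = finrank (ZMod p) M :=
    Subspace.dual_finrank_eq
  have h4 : h0c (dual M) = finrank (ZMod p) (LinearMap.ker (τ.dualMap + 1)) := by
    unfold h0c
    have e : ((dual M).ρ complexConjugation - 1 : Module.End (ZMod p) (dual M)) =
        -(τ.dualMap + 1) := by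
      apply LinearMap.ext
      intro f
      apply LinearMap.ext
      intro m
      have := Rep.dualTwist_ρ_apply M (cycloChar p) complexConjugation f
      rw [LinearMap.sub_apply, this, cycloChar_complexConjugation, complexConjugation_inv]
      simp [hτ, LinearMap.dualMap_apply]
      ring
    rw [e, LinearMap.ker_neg]
  have h5 : h0c M = finrank (ZMod p) (LinearMap.ker (τ - 1)) := rfl
  omega

/-- `h⁰(ℝ, ·)` is additive on short exact sequences (`p` odd). -/
theorem h0c_additive (hp2 : p ≠ 2) {A B C : Rep.{0} (ZMod p) Γ} [FiniteDimensional (ZMod p) B]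
    (φ : A →ₗ[ZMod p] B) (hφ : ∀ g a, φ (A.ρ g a) = B.ρ g (φ a))
    (ψ : B →ₗ[ZMod p] C) (hψ : ∀ g b, ψ (B.ρ g b) = C.ρ g (ψ b))
    (hinj : Function.Injective φ) (hsurj : Function.Surjective ψ)
    (hex : ∀ b, ψ b = 0 ↔ ∃ a, φ a = b) : h0c B = h0c A + h0c C := by
  set c : Γ := complexConjugation with hc
  have hcc : ∀ (X : Rep.{0} (ZMod p) Γ) (x : X), X.ρ c (X.ρ c x) = x := fun X x => by
    have := LinearMap.congr_fun (ρ_conj_comp_ρ_conj X) x
    simpa using this
  have memfix : ∀ (X : Rep.{0} (ZMod p) Γ) (x : X),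
      x ∈ LinearMap.ker (X.ρ c - 1) ↔ X.ρ c x = x := fun X x => by
    rw [LinearMap.mem_ker, LinearMap.sub_apply, Module.End.one_apply, sub_eq_zero]
  -- the restriction of `ψ` to the fixed spaces
  let ψ' : LinearMap.ker (B.ρ c - 1) →ₗ[ZMod p] LinearMap.ker (C.ρ c - 1) :=
    (ψ.comp (LinearMap.ker (B.ρ c - 1)).subtype).codRestrict _ (fun b => by
      rw [memfix]
      have hb := (memfix B b.1).1 b.2
      simp only [LinearMap.comp_apply, Submodule.subtype_apply]
      rw [← hψ, hb])
  let φ' : LinearMap.ker (A.ρ c - 1) →ₗ[ZMod p] LinearMap.ker (B.ρ c - 1) :=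
    (φ.comp (LinearMap.ker (A.ρ c - 1)).subtype).codRestrict _ (fun a => by
      rw [memfix]
      have ha := (memfix A a.1).1 a.2
      simp only [LinearMap.comp_apply, Submodule.subtype_apply]
      rw [← hφ, ha])
  have hφ'inj : Function.Injective φ' := by
    intro a a' h
    apply Subtype.ext
    apply hinj
    exact congrArg Subtype.val h
  have hψ'surj : Function.Surjective ψ' := by
    rintro ⟨x, hx⟩
    rw [memfix] at hx
    obtain ⟨b, rfl⟩ := hsurj x
    have h2 : (2 : ZMod p) ≠ 0 := two_ne_zero_zmod hp2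
    refine ⟨⟨(2 : ZMod p)⁻¹ • (b + B.ρ c b), ?_⟩, ?_⟩
    · rw [memfix, map_smul, map_add, hcc, add_comm]
    · apply Subtype.ext
      show ψ ((2 : ZMod p)⁻¹ • (b + B.ρ c b)) = ψ b
      rw [map_smul, map_add, hψ, hx, ← two_smul (ZMod p) (ψ b), smul_smul, inv_mul_cancel₀ h2,
        one_smul]
  have hker : LinearMap.ker ψ' = LinearMap.range φ' := by
    ext b
    rw [LinearMap.mem_ker, LinearMap.mem_range]
    constructor
    · intro h
      have h' : ψ (b : B) = 0 := congrArg Subtype.val h
      obtain ⟨a, ha⟩ := (hex _).1 h'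
      have hb := (memfix B b.1).1 b.2
      have haf : a ∈ LinearMap.ker (A.ρ c - 1) := by
        rw [memfix]
        apply hinj
        rw [hφ, ha, hb]
      exact ⟨⟨a, haf⟩, Subtype.ext ha⟩
    · rintro ⟨a, rfl⟩
      apply Subtype.ext
      exact (hex _).2 ⟨a, rfl⟩
  have h1 := LinearMap.finrank_range_add_finrank_ker ψ'
  rw [hker, LinearMap.finrank_range_of_inj hφ'inj, LinearMap.range_eq_top.2 hψ'surj,
    finrank_top] at h1
  unfold h0c
  rw [← hc]
  omega

/-! ### The Tate defect -/

/-- `dT S M = h⁰ + h² + dim M - h¹ - h⁰(ℝ)`. -/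
noncomputable def dT (S : Finset Nat.Primes) (M : Rep.{0} (ZMod p) Γ) : ℤ :=
  (h0g M : ℤ) + finrank (ZMod p) (H2g S M) + finrank (ZMod p) M - finrank (ZMod p) (H1g S M) -
    h0c M

theorem globalEulerLe_iff (S : Finset Nat.Primes) (M : Rep.{0} (ZMod p) Γ) :
    GlobalEulerLe S M ↔ 0 ≤ dT S M := by
  unfold GlobalEulerLe dT
  omega

theorem dT_eq_chi (S : Finset Nat.Primes) (M : Rep.{0} (ZMod p) Γ) :
    dT S M = chi (globalBasis S) M + finrank (ZMod p) M - h0c M := by
  unfold dT chi h0g
  ring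

/-- `dT` is sub-additive on short exact sequences. -/
theorem dT_le (hp2 : p ≠ 2) (S : Finset Nat.Primes) {A B C : Rep.{0} (ZMod p) Γ}
    (φ : A →ₗ[ZMod p] B) (hφ : ∀ g a, φ (A.ρ g a) = B.ρ g (φ a))
    (ψ : B →ₗ[ZMod p] C) (hψ : ∀ g b, ψ (B.ρ g b) = C.ρ g (ψ b))
    (hinj : Function.Injective φ) (hsurj : Function.Surjective ψ)
    (hex : ∀ b, ψ b = 0 ↔ ∃ a, φ a = b) [FiniteDimensional (ZMod p) B]
    (hB : IsDiscrete (globalBasis S).sets B)
    [FiniteDimensional (ZMod p) (H1g S A)] [FiniteDimensional (ZMod p) (H1g S B)]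
    [FiniteDimensional (ZMod p) (H1g S C)] [FiniteDimensional (ZMod p) (H2g S A)]
    [FiniteDimensional (ZMod p) (H2g S B)] [FiniteDimensional (ZMod p) (H2g S C)] :
    dT S B ≤ dT S A + dT S C := by
  haveI hAfd : FiniteDimensional (ZMod p) A := FiniteDimensional.of_injective φ hinj
  haveI hCfd : FiniteDimensional (ZMod p) C := FiniteDimensional.of_surjective ψ hsurj
  have h1 := chi_le (globalBasis S) φ hφ ψ hψ hinj hsurj hex hB
  have h2 := h0c_additive hp2 φ hφ ψ hψ hinj hsurj hex
  have hdim : finrank (ZMod p) B = finrank (ZMod p) A + finrank (ZMod p) C := by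
    have h1 := LinearMap.finrank_range_add_finrank_ker ψ
    have h2 : LinearMap.ker ψ = LinearMap.range φ := by
      ext b
      rw [LinearMap.mem_ker, LinearMap.mem_range]
      exact hex b
    rw [h2, LinearMap.finrank_range_of_inj hinj, LinearMap.range_eq_top.2 hsurj,
      finrank_top] at h1
    omega
  rw [dT_eq_chi, dT_eq_chi, dT_eq_chi]
  omega

/-- `dT S M + dT S M^* = χ(M) + χ(M^*) + dim M`. -/
theorem dT_add_dT_dual (hp2 : p ≠ 2) (S : Finset Nat.Primes) (M : Rep.{0} (ZMod p) Γ)
    [FiniteDimensional (ZMod p) M] :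
    dT S M + dT S (dual M) =
      chi (globalBasis S) M + chi (globalBasis S) (dual M) + finrank (ZMod p) M := by
  have h1 := h0c_add_h0c_dual hp2 M
  have h2 : finrank (ZMod p) (dual M) = finrank (ZMod p) M := Subspace.dual_finrank_eq
  rw [dT_eq_chi, dT_eq_chi, h2]
  omega

end Fermat.Agent.TW.Tate62.DTate
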