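/-
TW programme (S56), brick C3-T2/T5 (helper62): reduction of Tate's formula, for the modules
inflated from a finite Galois group `D = Gal(F/ℚ)` (`F ∋ μ_p` unramified outside `S`), to the
base cases `coind_C^D σ`, `C ≤ D` cyclic of order prime to `p`.

Inputs (hypotheses of the main theorem `dT_infl_eq_zero`):
* `(FIN)`, `(SYM)` of `GWIface2_97` for the set `S`;
* the K₀ lemma of helper68 (`K0Statement p`, = `ArtinInd68.eq_zero_of_cyclic_coind`);
* the base inequality `GlobalEulerLe S (infl (coind σ))`;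
* the twisted dual of a module coinduced from `C` is coinduced from `C`.
Output: `dT S (infl ρ) = 0` for every finite-dimensional representation `ρ` of `D`.
-/
import Mathlib
import Fermat.Agent.PT.PRO.ShapiroSm28
import Fermat.Agent.TW.GWIface2_97
import Fermat.Agent.TW.AddFun68
import Fermat.Agent.TW.Tate62.DTate

set_option autoImplicit false
set_option linter.unusedSectionVars false
set_option linter.style.haveILetI false

open Module ExtCitation

namespace Fermat.Agent.TW.Tate62.KZero

open Fermat.Agent.PT.PRO Fermat.Agent.PT.PRO.LevelCoh28 Fermat.Agent.PT.BR.LevelBridge13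
open Fermat.Agent.TW.GWIface97 Fermat.Agent.TW.GWIface2_97 Fermat.Agent.TW.AddFun68
open Fermat.Agent.TW.Tate62.H0LES Fermat.Agent.TW.Tate62.EulerIneq
open Fermat.Agent.TW.Tate62.ChiAdditive Fermat.Agent.TW.Tate62.DTate

local notation "Qbar" => AlgebraicClosure ℚ
local notation "Γ" => (AlgebraicClosure ℚ ≃ₐ[ℚ] AlgebraicClosure ℚ)

variable {p : ℕ} [Fact p.Prime]

/-! ### Good modules = finite-dimensional discrete modules -/

theorem isDiscrete_of_isGood {S : Finset Nat.Primes} {M : Rep.{0} (ZMod p) Γ} (hM : IsGood S M) :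
    IsDiscrete (globalBasis S).sets M :=
  haveI := hM.fin
  isDiscrete_globalSets S M hM.smooth hM.unram

theorem isGood_of_isDiscrete {S : Finset Nat.Primes} {M : Rep.{0} (ZMod p) Γ}
    [FiniteDimensional (ZMod p) M] (hM : IsDiscrete (globalBasis S).sets M) : IsGood S M := by
  obtain ⟨U, ⟨L, hL, rfl⟩, -, hfix⟩ :=
    exists_normal_acting_trivially (globalBasis S).isBasis hM
  refine ⟨inferInstance, fun m => ⟨L, hL.1, fun s hs => hfix s hs m⟩, fun q hq A hA g hg => ?_⟩
  apply LinearMap.ext
  intro m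
  exact hfix g (hL.2 q hq A hA hg) m

/-! ### Invariance of `dT` under equivariant isomorphisms -/

section Congr

variable (S : Finset Nat.Primes) {A B : Rep.{0} (ZMod p) Γ} (Φ : A →ₗ[ZMod p] B)
  (hΦ : ∀ g a, Φ (A.ρ g a) = B.ρ g (Φ a)) (hbij : Function.Bijective Φ)

include hΦ hbij in
theorem finrank_ker_sub_one_congr (g : Γ) :
    finrank (ZMod p) (LinearMap.ker (A.ρ g - 1)) = finrank (ZMod p) (LinearMap.ker (B.ρ g - 1)) := by
  let e : A ≃ₗ[ZMod p] B := LinearEquiv.ofBijective Φ hbij
  have h : (LinearMap.ker (A.ρ g - 1)).map (e : A →ₗ[ZMod p] B) = LinearMap.ker (B.ρ g - 1) := by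
    ext b
    rw [Submodule.mem_map, LinearMap.mem_ker]
    constructor
    · rintro ⟨a, ha, rfl⟩
      rw [LinearMap.mem_ker, LinearMap.sub_apply, Module.End.one_apply, sub_eq_zero] at ha
      show (B.ρ g - 1) (Φ a) = 0
      rw [LinearMap.sub_apply, Module.End.one_apply, ← hΦ, ha, sub_self]
    · intro hb
      obtain ⟨a, rfl⟩ := hbij.2 b
      refine ⟨a, ?_, rfl⟩
      rw [LinearMap.mem_ker, LinearMap.sub_apply, Module.End.one_apply, sub_eq_zero]
      apply hbij.1
      rw [hΦ]
      rw [LinearMap.sub_apply, Module.End.one_apply, sub_eq_zero] at hb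
      exact hb
  rw [← h]
  exact (LinearEquiv.finrank_map_eq e _).symm

include hΦ hbij in
theorem dT_congr : dT S A = dT S B := by
  have h1 : finrank (ZMod p) (H1g S A) = finrank (ZMod p) (H1g S B) :=
    LinearEquiv.finrank_eq (LinearEquiv.ofBijective _
      (ShapiroSm28.mapH1_bijective (𝓑 := globalBasis S) Φ hΦ hbij))
  have h2 : finrank (ZMod p) (H2g S A) = finrank (ZMod p) (H2g S B) :=
    LinearEquiv.finrank_eq (LinearEquiv.ofBijective _
      (ShapiroSm28.mapH2_bijective (𝓑 := globalBasis S) Φ hΦ hbij))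
  have h3 : finrank (ZMod p) A = finrank (ZMod p) B :=
    LinearEquiv.finrank_eq (LinearEquiv.ofBijective Φ hbij)
  have h4 : h0c A = h0c B := finrank_ker_sub_one_congr Φ hΦ hbij complexConjugation
  have h5 : h0g A = h0g B := by
    unfold h0g
    have hb : Function.Bijective (mapH0 Φ hΦ) := by
      refine ⟨mapH0_injective Φ hΦ hbij.1, fun b => ?_⟩
      obtain ⟨a, ha⟩ := hbij.2 (b : B)
      have haG : a ∈ H0 A := by
        rw [mem_H0_iff]
        intro g
        apply hbij.1
        rw [hΦ, ha, (mem_H0_iff B _).1 b.2 g]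
      exact ⟨⟨a, haG⟩, Subtype.ext ha⟩
    exact LinearEquiv.finrank_eq (LinearEquiv.ofBijective _ hb)
  unfold dT
  rw [h1, h2, h3, h4, h5]

end Congr

/-! ### The finite quotient `Gal(F/ℚ)` and inflation -/

section Quotient

variable (F : IntermediateField ℚ Qbar) [FiniteDimensional ℚ F] [IsGalois ℚ F]

/-- `Gal(F/ℚ)`. -/
abbrev GalF : Type := (↥F ≃ₐ[ℚ] ↥F)

/-- Restriction `Gal(ℚ̄/ℚ) → Gal(F/ℚ)`. -/
noncomputable def resF : Γ →* GalF F := AlgEquiv.restrictNormalHom ↥F

theorem resF_surjective : Function.Surjective (resF F) :=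
  AlgEquiv.restrictNormalHom_surjective Qbar

theorem ker_resF : (resF F).ker = F.fixingSubgroup := by
  have h1 : Normal ℚ ↥F := IsGalois.to_normal
  exact @IntermediateField.restrictNormalHom_ker ℚ Qbar _ _ _ F h1

theorem resF_eq_one_iff (g : Γ) : resF F g = 1 ↔ g ∈ F.fixingSubgroup := by
  rw [← ker_resF, MonoidHom.mem_ker]

variable {V : Type} [AddCommGroup V] [Module (ZMod p) V]

/-- Inflation of a representation of `Gal(F/ℚ)` to `Gal(ℚ̄/ℚ)`. -/
noncomputable def infl (ρ : Representation (ZMod p) (GalF F) V) : Rep.{0} (ZMod p) Γ :=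
  Rep.of (ρ.comp (resF F))

theorem infl_ρ_apply (ρ : Representation (ZMod p) (GalF F) V) (g : Γ) (v : V) :
    (infl F ρ).ρ g v = ρ (resF F g) v := rfl

variable {F}

theorem isDiscrete_infl {S : Finset Nat.Primes} (hF : F.IsUnramifiedOutside S)
    (ρ : Representation (ZMod p) (GalF F) V) : IsDiscrete (globalBasis S).sets (infl F ρ) := by
  intro v
  refine ⟨_, ⟨F, hF, rfl⟩, fun s hs => ?_⟩
  have h : ρ (resF F s) = 1 := by rw [(resF_eq_one_iff F s).2 hs, map_one]
  show ρ (resF F s) v = v
  rw [h]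
  rfl

theorem isGood_infl {S : Finset Nat.Primes} (hF : F.IsUnramifiedOutside S)
    [Module.Finite (ZMod p) V] (ρ : Representation (ZMod p) (GalF F) V) :
    IsGood S (infl F ρ) :=
  haveI : FiniteDimensional (ZMod p) (infl F ρ) := inferInstanceAs (FiniteDimensional (ZMod p) V)
  isGood_of_isDiscrete (isDiscrete_infl hF ρ)

end Quotient


/-! ### From the interface hypotheses `(FIN)`, `(SYM)` to `FinCoh`, `SymRel` -/

section Hyps

variable (S : Finset Nat.Primes)

theorem finCoh_of_globalFin
    (hFIN : ∀ M : Rep.{0} (ZMod p) Γ, IsGood S M → GlobalFin S M) :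
    FinCoh (k := ZMod p) (globalBasis S) := by
  intro X hXfd hX
  haveI := hXfd
  exact hFIN X (isGood_of_isDiscrete hX)

theorem chi_add_chi_dual_of_globalSym {M : Rep.{0} (ZMod p) Γ} (h : GlobalSym S M) :
    chi (globalBasis S) M + chi (globalBasis S) (dual M) = -(finrank (ZMod p) M : ℤ) := by
  unfold GlobalSym h0g at h
  unfold chi
  have h' : ((finrank (ZMod p) (H0 M) : ℕ) : ℤ) + finrank (ZMod p) (H2g S M) +
      finrank (ZMod p) (H0 (dual M)) + finrank (ZMod p) (H2g S (dual M)) + finrank (ZMod p) M =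
      finrank (ZMod p) (H1g S M) + finrank (ZMod p) (H1g S (dual M)) := by
    exact_mod_cast h
  linarith

theorem symRel_of_globalSym
    (hSYM : ∀ M : Rep.{0} (ZMod p) Γ, IsGood S M → GlobalSym S M) :
    SymRel (k := ZMod p) (globalBasis S) (cycloChar p) := by
  intro X hXfd hX
  haveI := hXfd
  exact chi_add_chi_dual_of_globalSym S (hSYM X (isGood_of_isDiscrete hX))

end Hyps

/-! ### The Tate defect as an additive function on representations of `Gal(F/ℚ)` -/

section Main

variable (F : IntermediateField ℚ Qbar) [FiniteDimensional ℚ F] [IsGalois ℚ F]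

/-- The Tate defect as a function on the representations of `Gal(F/ℚ)`. -/
noncomputable def fT (S : Finset Nat.Primes) : RepFun p (GalF F) :=
  fun _ _ _ ρ => dT S (infl F ρ)

variable {F}

theorem isLevelChar_cycloChar {S : Finset Nat.Primes} (hF : F.IsUnramifiedOutside S)
    (hζ : ∀ γ ∈ F.fixingSubgroup, cycloChar p γ = 1) :
    IsLevelChar (globalBasis S).sets (cycloChar p) :=
  ⟨_, ⟨F, hF, rfl⟩, hζ⟩

theorem isAdditiveFun_fT (hp2 : p ≠ 2) {S : Finset Nat.Primes} (hF : F.IsUnramifiedOutside S)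
    (hζ : ∀ γ ∈ F.fixingSubgroup, cycloChar p γ = 1)
    (hFIN : ∀ M : Rep.{0} (ZMod p) Γ, IsGood S M → GlobalFin S M)
    (hSYM : ∀ M : Rep.{0} (ZMod p) Γ, IsGood S M → GlobalSym S M) :
    IsAdditiveFun p (GalF F) (fT F S) := by
  intro V' V V'' _ _ _ _ _ _ _ _ _ ρ' ρ ρ'' i q hi hq hex
  set A : Rep.{0} (ZMod p) Γ := infl F ρ' with hA
  set B : Rep.{0} (ZMod p) Γ := infl F ρ with hB
  set C : Rep.{0} (ZMod p) Γ := infl F ρ'' with hC
  let φ : A →ₗ[ZMod p] B := i.toLinearMap
  let ψ : B →ₗ[ZMod p] C := q.toLinearMap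
  have hφ : ∀ g a, φ (A.ρ g a) = B.ρ g (φ a) := fun g a =>
    Representation.IntertwiningMap.isIntertwining ρ' ρ i (resF F g) a
  have hψ : ∀ g b, ψ (B.ρ g b) = C.ρ g (ψ b) := fun g b =>
    Representation.IntertwiningMap.isIntertwining ρ ρ'' q (resF F g) b
  have hinj : Function.Injective φ := hi
  have hsurj : Function.Surjective ψ := hq
  have hex' : ∀ b, ψ b = 0 ↔ ∃ a, φ a = b := fun b => by
    constructor
    · intro h
      have h1 : (b : V) ∈ LinearMap.ker q.toLinearMap := h
      rw [← hex] at h1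
      exact h1
    · rintro ⟨a, rfl⟩
      have h1 : i.toLinearMap a ∈ LinearMap.range i.toLinearMap := ⟨a, rfl⟩
      rw [hex] at h1
      exact h1
  haveI : FiniteDimensional (ZMod p) B := inferInstanceAs (FiniteDimensional (ZMod p) V)
  have hBd : IsDiscrete (globalBasis S).sets B := isDiscrete_infl hF ρ
  have hchi := chi_additive (isLevelChar_cycloChar hF hζ) (finCoh_of_globalFin S hFIN)
    (symRel_of_globalSym S hSYM) φ hφ ψ hψ hinj hsurj hex' hBd
  have hc := h0c_additive hp2 φ hφ ψ hψ hinj hsurj hex'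
  have hdim : finrank (ZMod p) B = finrank (ZMod p) A + finrank (ZMod p) C := by
    have h1 := LinearMap.finrank_range_add_finrank_ker ψ
    have h2 : LinearMap.ker ψ = LinearMap.range φ := by
      ext b
      rw [LinearMap.mem_ker, LinearMap.mem_range]
      exact hex' b
    rw [h2, LinearMap.finrank_range_of_inj hinj, LinearMap.range_eq_top.2 hsurj,
      finrank_top] at h1
    omega
  show dT S B = dT S A + dT S C
  rw [dT_eq_chi, dT_eq_chi, dT_eq_chi]
  omega

/-- The K₀ lemma (helper68's `ArtinInd68.eq_zero_of_cyclic_coind`), as a `Prop`. -/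
def K0Statement (p : ℕ) [Fact p.Prime] : Prop :=
  ∀ (G : Type) [Group G] [Finite G] (f : RepFun p G), IsAdditiveFun p G f →
    (∀ (C : Subgroup G), IsCyclic C → (Nat.card C).Coprime p →
      ∀ (W : Type) [AddCommGroup W] [Module (ZMod p) W] [Module.Finite (ZMod p) W]
        (σ : Representation (ZMod p) C W), f _ (Representation.coind C.subtype σ) = 0) →
    ∀ (V : Type) [AddCommGroup V] [Module (ZMod p) V] [Module.Finite (ZMod p) V]
      (ρ : Representation (ZMod p) G V), f V ρ = 0

/-- The base inequality: Tate's inequality for the modules coinduced from cyclic subgroups of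
order prime to `p`. -/
def BaseIneq (F : IntermediateField ℚ Qbar) [FiniteDimensional ℚ F] [IsGalois ℚ F]
    (S : Finset Nat.Primes) : Prop :=
  ∀ (C : Subgroup (GalF F)), IsCyclic C → (Nat.card C).Coprime p →
    ∀ (W : Type) [AddCommGroup W] [Module (ZMod p) W] [Module.Finite (ZMod p) W]
      (σ : Representation (ZMod p) C W),
      GlobalEulerLe S (infl F (Representation.coind C.subtype σ))

/-- The twisted dual of a module coinduced from `C` is (isomorphic to) a module coinduced
from `C` (when `μ_p ⊂ F`). -/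
def DualCoind (F : IntermediateField ℚ Qbar) [FiniteDimensional ℚ F] [IsGalois ℚ F] : Prop :=
  (∀ γ ∈ F.fixingSubgroup, cycloChar p γ = 1) →
  ∀ (C : Subgroup (GalF F)) (W : Type) [AddCommGroup W] [Module (ZMod p) W]
    [Module.Finite (ZMod p) W] (σ : Representation (ZMod p) C W),
    ∃ (W' : Type) (_ : AddCommGroup W') (_ : Module (ZMod p) W') (_ : Module.Finite (ZMod p) W')
      (σ' : Representation (ZMod p) C W')
      (Φ : dual (infl F (Representation.coind C.subtype σ)) →ₗ[ZMod p]
        infl F (Representation.coind C.subtype σ')),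
      (∀ g a, Φ ((dual (infl F (Representation.coind C.subtype σ))).ρ g a) =
        (infl F (Representation.coind C.subtype σ')).ρ g (Φ a)) ∧ Function.Bijective Φ

/-- **Tate's formula for all modules inflated from `Gal(F/ℚ)`**, from the base inequality. -/
theorem dT_infl_eq_zero (hp2 : p ≠ 2) {S : Finset Nat.Primes} (hF : F.IsUnramifiedOutside S)
    (hζ : ∀ γ ∈ F.fixingSubgroup, cycloChar p γ = 1)
    (hFIN : ∀ M : Rep.{0} (ZMod p) Γ, IsGood S M → GlobalFin S M)
    (hSYM : ∀ M : Rep.{0} (ZMod p) Γ, IsGood S M → GlobalSym S M)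
    (hK0 : K0Statement p) (hBASE : BaseIneq (p := p) F S) (hDUAL : DualCoind (p := p) F)
    (V : Type) [AddCommGroup V] [Module (ZMod p) V] [Module.Finite (ZMod p) V]
    (ρ : Representation (ZMod p) (GalF F) V) : dT S (infl F ρ) = 0 := by
  haveI : Finite (GalF F) := inferInstance
  refine hK0 (GalF F) (fT F S) (isAdditiveFun_fT hp2 hF hζ hFIN hSYM) ?_ V ρ
  intro C hC hcop W _ _ _ σ
  show dT S (infl F (Representation.coind C.subtype σ)) = 0
  set X : Rep.{0} (ZMod p) Γ := infl F (Representation.coind C.subtype σ) with hX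
  haveI hXfd : FiniteDimensional (ZMod p) X :=
    inferInstanceAs (FiniteDimensional (ZMod p) (Representation.coindV C.subtype σ))
  have hXgood : IsGood S X := isGood_of_isDiscrete (isDiscrete_infl hF _)
  have h1 : 0 ≤ dT S X := (globalEulerLe_iff S X).1 (hBASE C hC hcop W σ)
  obtain ⟨W', _, _, _, σ', Φ, hΦ, hbij⟩ := hDUAL hζ C W σ
  have h2 : 0 ≤ dT S (dual X) := by
    rw [dT_congr S Φ hΦ hbij]
    exact (globalEulerLe_iff S _).1 (hBASE C hC hcop W' σ')
  have h3 := dT_add_dT_dual hp2 S X
  have h4 := chi_add_chi_dual_of_globalSym S (hSYM X hXgood)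
  omega

end Main

end Fermat.Agent.TW.Tate62.KZero
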