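/-
TW programme (S56), brick C3-T4d (helper62): **generator calculus**, group side
(complements `DirHerb5/HomCalc` of helper5: `homSub`, `hom`, `twFix`).

* invariants of `Hom(A, B)` for representations inflated from a group generated by one element
  `c₀` are the commutant of `c₀`;
* invariants of a representation of such a group are `ker (ρ c₀ - 1)`;
* twisted fixed points of the generator are equivariant for the whole group.
-/
import Mathlib
import Fermat.Agent.TW.DirHerb5.HomCalc

set_option autoImplicit false
set_option linter.unusedSectionVars false
set_option linter.style.haveILetI false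

open Module

namespace Fermat.Agent.TW.Tate62.GenCalc

open Fermat.Agent.TW.DirHerb5.HomCalc

variable {k : Type*} [Field k]
variable {N : Type*} [AddCommGroup N] [Module k N]
variable {Y : Type*} [AddCommGroup Y] [Module k Y]

/-! ### Groups generated by one element -/

section Cyclic

variable {C : Type*} [Group C]

/-- For a group generated by `c₀`, the invariants of `Hom(N, Y)` are the commutant of `c₀`. -/
theorem invariants_linHom_eq (c₀ : C) (hc₀ : ∀ c : C, c ∈ Subgroup.zpowers c₀)
    (αA : Representation k C N) (αB : Representation k C Y) :
    (Representation.linHom αA αB).invariants = homSub (αA c₀) (αB c₀) := by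
  ext f
  rw [Representation.mem_invariants_iff_of_forall_mem_zpowers _ c₀ hc₀, mem_homSub_iff,
    Representation.linHom_apply]
  constructor
  · intro h n
    have h1 := LinearMap.congr_fun h (αA c₀ n)
    rw [LinearMap.comp_apply, LinearMap.comp_apply, ← Module.End.mul_apply, ← map_mul,
      inv_mul_cancel, map_one, Module.End.one_apply] at h1
    exact h1.symm
  · intro h
    apply LinearMap.ext
    intro n
    rw [LinearMap.comp_apply, LinearMap.comp_apply, ← h, ← Module.End.mul_apply, ← map_mul,
      mul_inv_cancel, map_one, Module.End.one_apply]

/-- Invariants of a representation inflated along a surjection. -/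
theorem invariants_comp_eq {H : Type*} [Group H] (t : H →* C) (ht : Function.Surjective t)
    (ρ : Representation k C N) :
    (Representation.invariants (ρ.comp t : Representation k H N)) = ρ.invariants := by
  ext n
  rw [Representation.mem_invariants, Representation.mem_invariants]
  constructor
  · intro h c
    obtain ⟨g, rfl⟩ := ht c
    exact h g
  · intro h g
    exact h (t g)

theorem linHom_comp_eq {H : Type*} [Group H] (t : H →* C)
    (αA : Representation k C N) (αB : Representation k C Y) :
    Representation.linHom (αA.comp t : Representation k H N) (αB.comp t : Representation k H Y) =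
      ((Representation.linHom αA αB).comp t : Representation k H (N →ₗ[k] Y)) := by
  apply MonoidHom.ext
  intro h
  apply LinearMap.ext
  intro f
  show αB (t h) ∘ₗ f ∘ₗ αA (t h⁻¹) = αB (t h) ∘ₗ f ∘ₗ αA (t h)⁻¹
  rw [map_inv]

/-- **The invariants of `Hom(A, B)` for modules inflated from a group generated by `c₀`.** -/
theorem finrank_invariants_linHom_comp {H : Type*} [Group H] (t : H →* C)
    (ht : Function.Surjective t) (c₀ : C) (hc₀ : ∀ c : C, c ∈ Subgroup.zpowers c₀)
    (αA : Representation k C N) (αB : Representation k C Y) :
    finrank k (Representation.linHom (αA.comp t : Representation k H N)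
      (αB.comp t : Representation k H Y)).invariants = hom (αA c₀) (αB c₀) := by
  rw [linHom_comp_eq, invariants_comp_eq t ht, invariants_linHom_eq c₀ hc₀]
  rfl

/-- Invariants of a group generated by `c₀`. -/
theorem invariants_eq_ker (c₀ : C) (hc₀ : ∀ c : C, c ∈ Subgroup.zpowers c₀)
    (ρ : Representation k C N) : ρ.invariants = LinearMap.ker (ρ c₀ - 1) := by
  ext n
  rw [Representation.mem_invariants_iff_of_forall_mem_zpowers _ c₀ hc₀, LinearMap.mem_ker,
    LinearMap.sub_apply, sub_eq_zero, Module.End.one_apply]

/-- Twisted fixed points for a generator are equivariant for the whole group. -/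
theorem twFix_equivariant {X : Type*} [MulAction C X] (c₀ : C)
    (hc₀ : ∀ c : C, c ∈ Subgroup.zpowers c₀) (ρ : Representation k C N) (x : X → N)
    (hx : x ∈ twFix (MulAction.toPerm c₀ : Equiv.Perm X) (ρ c₀)) (c : C) (v : X) :
    x (c • v) = ρ c (x v) := by
  let K : Subgroup C :=
    { carrier := {c | ∀ v, x (c • v) = ρ c (x v)}
      mul_mem' := by
        intro c d (hc : ∀ v, x (c • v) = ρ c (x v)) (hd : ∀ v, x (d • v) = ρ d (x v)) v
        show x ((c * d) • v) = ρ (c * d) (x v)
        rw [mul_smul, hc, hd, map_mul, Module.End.mul_apply]
      one_mem' := by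
        intro v
        show x ((1 : C) • v) = ρ 1 (x v)
        rw [one_smul, map_one, Module.End.one_apply]
      inv_mem' := by
        intro c (hc : ∀ v, x (c • v) = ρ c (x v)) v
        show x (c⁻¹ • v) = ρ c⁻¹ (x v)
        have h1 := hc (c⁻¹ • v)
        rw [smul_inv_smul] at h1
        rw [h1, ← Module.End.mul_apply, ← map_mul, inv_mul_cancel, map_one, Module.End.one_apply] }
  have h0 : c₀ ∈ K := fun v => hx v
  have h1 : Subgroup.zpowers c₀ ≤ K := (Subgroup.zpowers_le).2 h0
  exact h1 (hc₀ c) v

end Cyclic

end Fermat.Agent.TW.Tate62.GenCalc
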