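/-
TW programme (S56), brick C3-T4d (helper62): the places terms of the Dirichlet–Herbrand formula
(generator form, `DirHerb5.AdaptersPrimes`) are bounded by the local invariants
(`TateMackey6.Places`, group form).
-/
import Mathlib
import Fermat.Agent.TW.Tate62.GenCalc
import Fermat.Agent.TW.Tate62.KZero
import Fermat.Agent.TW.TateMackey6.Places
import Fermat.Agent.TW.DirHerb5.AdaptersPrimes

set_option autoImplicit false
set_option linter.unusedSectionVars false
set_option linter.style.haveILetI false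
set_option synthInstance.maxHeartbeats 200000

open Module ExtCitation NumberField IsDedekindDomain

namespace Fermat.Agent.TW.Tate62.BasePlaces

open Fermat.Agent.TW.GWIface97
open Fermat.Agent.TW.Tate62.KZero Fermat.Agent.TW.Tate62.GenCalc
open Fermat.Agent.TW.TateShap6.Main Fermat.Agent.TW.TateMackey6
open Fermat.Agent.TW.DirHerb5.HomCalc Fermat.Agent.TW.DirHerb5.GaloisAction
open Fermat.Agent.TW.DirHerb5.AdaptersPrimes

local notation "Qbar" => AlgebraicClosure ℚ
local notation "Pq5" => Fermat.Agent.TW.DirHerb5.AdaptersPrimes.Pq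
local notation "Γ" => (AlgebraicClosure ℚ ≃ₐ[ℚ] AlgebraicClosure ℚ)

variable {p : ℕ} [hp : Fact p.Prime]
variable (F : IntermediateField ℚ Qbar) [FiniteDimensional ℚ F] [IsGalois ℚ F]
  (C : Subgroup (GalF F)) {N : Type} [AddCommGroup N] [Module (ZMod p) N]
  [FiniteDimensional (ZMod p) N] (σ : Representation (ZMod p) C N)
  (c₀ : C) (hc₀ : ∀ c : C, c ∈ Subgroup.zpowers c₀)

include hc₀ in
/-- The archimedean term. -/
theorem finrank_twFix_inf_le :
    finrank (ZMod p) (twFix (MulAction.toPerm (c₀ : GalF F) : Equiv.Perm (InfinitePlace ↥F))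
      (σ c₀)) ≤ h0c (modM F C σ) := by
  refine le_trans ?_ (Places.finrank_funInf_le_h0c F C σ)
  apply Submodule.finrank_mono
  intro x hx
  rw [Places.mem_funInf_iff]
  intro c w
  have hx' : x ∈ twFix (MulAction.toPerm c₀ : Equiv.Perm (InfinitePlace ↥F)) (σ c₀) := hx
  exact twFix_equivariant c₀ hc₀ σ x hx' c w

/-- The action of `C` on the primes above `q` (in the packaging of `DirHerb5.AdaptersPrimes`). -/
@[reducible]
noncomputable def mulActionPq5 (q : ℕ) : MulAction C (Pq5 ↥F q) where
  smul c P := permQ (k := ℚ) ↥F (c : GalF F) q P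
  one_smul P := Subtype.ext (smulP_one ↥F P.1)
  mul_smul c d P := Subtype.ext (smulP_smulP ↥F (c : GalF F) (d : GalF F) P.1).symm

/-- From the packaging of `TateMackey6.Places` to the one of `DirHerb5.AdaptersPrimes`. -/
def toPq5 (q : Nat.Primes) (P : Places.Pq F q) : Pq5 ↥F (q : ℕ) :=
  ⟨P.1, by
    have h : (((q : ℕ) : ℤ) : 𝓞 ↥F) ∈ P.1.asIdeal := P.2
    simpa using h⟩

theorem toPq5_surjective (q : Nat.Primes) : Function.Surjective (toPq5 F q) := by
  intro P
  refine ⟨⟨P.1, ?_⟩, Subtype.ext rfl⟩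
  have h : ((q : ℕ) : 𝓞 ↥F) ∈ P.1.asIdeal := P.2
  simpa using h

theorem toPq5_injective (q : Nat.Primes) : Function.Injective (toPq5 F q) := by
  intro P P' h
  exact Subtype.ext (congrArg Subtype.val h)

instance finite_PlacesPq (q : Nat.Primes) : Finite (Places.Pq F q) :=
  haveI : Finite (Pq5 ↥F (q : ℕ)) := Fermat.Agent.TW.DirHerb5.AdaptersPrimes.finite_Pq ↥F q
  Finite.of_injective _ (toPq5_injective F q)

include hc₀ in
/-- The term at the prime `q`. -/
theorem finrank_twFix_Pq_le (q : Nat.Primes) :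
    finrank (ZMod p) (twFix (permQ (k := ℚ) ↥F (c₀ : GalF F) (q : ℕ)) (σ c₀)) ≤
      h0l q (modM F C σ) := by
  refine le_trans ?_ (Places.finrank_funPq_le_h0l F q C σ)
  letI := mulActionPq5 F C (q : ℕ)
  haveI : Finite (Pq5 ↥F (q : ℕ)) := Fermat.Agent.TW.DirHerb5.AdaptersPrimes.finite_Pq ↥F q
  let R : twFix (permQ (k := ℚ) ↥F (c₀ : GalF F) (q : ℕ)) (σ c₀) →ₗ[ZMod p]
      Places.funPq F q C σ :=
    { toFun := fun x => ⟨fun P => x.1 (toPq5 F q P), by
        rw [Places.mem_funPq_iff]
        intro c P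
        have hx' : x.1 ∈ twFix (MulAction.toPerm c₀ : Equiv.Perm (Pq5 ↥F (q : ℕ)))
            (σ c₀) := x.2
        exact twFix_equivariant c₀ hc₀ σ x.1 hx' c (toPq5 F q P)⟩
      map_add' := fun x y => rfl
      map_smul' := fun a x => rfl }
  have hR : Function.Injective R := by
    intro x y hxy
    apply Subtype.ext
    funext P
    obtain ⟨P', rfl⟩ := toPq5_surjective F q P
    have h1 := congrArg Subtype.val hxy
    exact congrFun h1 P'
  exact LinearMap.finrank_le_finrank_of_injective hR

end Fermat.Agent.TW.Tate62.BasePlaces
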