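/-
TW programme (S56), brick C3-T4d (helper62): the cyclotomic character of `Gal(F/ℚ)` for a finite
Galois `F ∋ ζ_p`.

* `zeta_mem hζ : zeta p ∈ F`;
* `omegaD F hζ : Gal(F/ℚ) →* (ZMod p)ˣ` with `cycloChar p g = omegaD F hζ (resF F g)`;
* `apply_zetaF`: `d ζ = ζ ^ (ω d).val` in `F`.
-/
import Mathlib
import Fermat.Agent.PT.BR.DualTwist7
import Fermat.Agent.TW.TateKum22.KummerMap
import Fermat.Agent.TW.Tate62.KZero

set_option autoImplicit false
set_option linter.unusedSectionVars false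
set_option linter.style.haveILetI false

open Module ExtCitation

namespace Fermat.Agent.TW.Tate62.Omega

open Fermat.Agent.TW.Tate62.KZero
open Fermat.Agent.S14.Fields (zeta zeta_spec)

local notation "Qbar" => AlgebraicClosure ℚ
local notation "Γ" => (AlgebraicClosure ℚ ≃ₐ[ℚ] AlgebraicClosure ℚ)

local instance isAlgClosureQbarOm62 : IsAlgClosure ℚ Qbar := ⟨inferInstance, inferInstance⟩
local instance normalQbarOm62 : Normal ℚ Qbar := IsAlgClosure.normal ℚ Qbar
local instance isGaloisQbarOm62 : IsGalois ℚ Qbar := IsAlgClosure.isGalois ℚ Qbar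

variable {p : ℕ} [hp : Fact p.Prime]
variable (F : IntermediateField ℚ Qbar) [FiniteDimensional ℚ F] [IsGalois ℚ F]

/-- `ζ_p ∈ F` when the cyclotomic character is trivial on `Gal(ℚ̄/F)`. -/
theorem zeta_mem (hζ : ∀ γ ∈ F.fixingSubgroup, cycloChar p γ = 1) : zeta p ∈ F := by
  have h1 : zeta p ∈ IntermediateField.fixedField F.fixingSubgroup := by
    rw [IntermediateField.mem_fixedField_iff]
    intro γ hγ
    exact (Fermat.Agent.PT.BR.DualTwist7.cycloChar_eq_one_iff p).1 (hζ γ hγ)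
  rwa [InfiniteGalois.fixedField_fixingSubgroup] at h1

/-- The cyclotomic character of `Gal(F/ℚ)`. -/
noncomputable def omegaD (hζ : ∀ γ ∈ F.fixingSubgroup, cycloChar p γ = 1) :
    GalF F →* (ZMod p)ˣ :=
  (resF F).liftOfRightInverseAux (Function.surjInv (resF_surjective F))
    (Function.rightInverse_surjInv (resF_surjective F)) (cycloChar p) (fun γ hγ => by
      rw [ker_resF] at hγ
      exact MonoidHom.mem_ker.2 (hζ γ hγ))

theorem cycloChar_eq_omegaD (hζ : ∀ γ ∈ F.fixingSubgroup, cycloChar p γ = 1) (g : Γ) :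
    cycloChar p g = omegaD F hζ (resF F g) := by
  unfold omegaD
  exact ((resF F).liftOfRightInverseAux_comp_apply _ _ _ _ g).symm

/-- `ζ_p` as an element of `F`. -/
noncomputable def zetaF (hζ : ∀ γ ∈ F.fixingSubgroup, cycloChar p γ = 1) : ↥F :=
  ⟨zeta p, zeta_mem F hζ⟩

theorem isPrimitiveRoot_zetaF (hζ : ∀ γ ∈ F.fixingSubgroup, cycloChar p γ = 1) :
    IsPrimitiveRoot (zetaF F hζ) p := by
  have h := zeta_spec p
  have h2 : (algebraMap ↥F Qbar) (zetaF F hζ) = zeta p := rfl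
  rw [← h2] at h
  exact IsPrimitiveRoot.of_map_of_injective (f := algebraMap ↥F Qbar) h
    (algebraMap ↥F Qbar).injective

/-- `d ζ = ζ ^ ω(d)`. -/
theorem apply_zetaF (hζ : ∀ γ ∈ F.fixingSubgroup, cycloChar p γ = 1) (d : GalF F) :
    d (zetaF F hζ) = zetaF F hζ ^ ((omegaD F hζ d : (ZMod p)ˣ) : ZMod p).val := by
  obtain ⟨g, rfl⟩ := resF_surjective F d
  apply Subtype.ext
  have h1 : ((resF F g (zetaF F hζ) : ↥F) : Qbar) = g (zeta p) :=
    AlgEquiv.restrictNormal_commutes g F (zetaF F hζ)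
  rw [h1, Fermat.Agent.TW.TateKum22.KummerMap.apply_eq_zpw_cycloChar (zeta_spec p) g,
    cycloChar_eq_omegaD F hζ g]
  rfl

end Fermat.Agent.TW.Tate62.Omega
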