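/-
TW programme (S56), brick C3-T5 (helper62): **`TateStatement p`** (`GWIface2_97`) from

* `K0Statement p`   : helper68's K₀ lemma (`ArtinInd68.eq_zero_of_cyclic_coind`);
* `DualCoind F`     : the twisted dual of a coinduced module is coinduced (helper96, Mackey (M2));
* `BaseBrick p`     : for every finite Galois `F ∋ μ_p` there is a finite set `S₀` of primes such
  that for all `S' ⊇ S₀` (with `p ∈ S'`, `F` unramified outside `S'`) Tate's inequality holds for the
  modules coinduced from cyclic subgroups of `Gal(F/ℚ)` of order prime to `p`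
  (Shapiro T3 + Kummer bound T4a + Dirichlet–Herbrand T4b + Mackey T4c + `(TAIL)`).
-/
import Mathlib
import Fermat.Agent.PT.BR.DualTwist7
import Fermat.Agent.TW.Tate62.KZero

set_option autoImplicit false
set_option linter.unusedSectionVars false
set_option linter.style.haveILetI false

open Module ExtCitation

namespace Fermat.Agent.TW.Tate62.TateFinal

open Fermat.Agent.PT.PRO Fermat.Agent.PT.PRO.LevelCoh28 Fermat.Agent.PT.BR.LevelBridge13
open Fermat.Agent.TW.GWIface97 Fermat.Agent.TW.GWIface2_97 Fermat.Agent.TW.AddFun68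
open Fermat.Agent.TW.Tate62.DTate Fermat.Agent.TW.Tate62.KZero

local notation "Qbar" => AlgebraicClosure ℚ
local notation "Γ" => (AlgebraicClosure ℚ ≃ₐ[ℚ] AlgebraicClosure ℚ)

variable {p : ℕ} [Fact p.Prime]

/-- The base brick: Tate's inequality for the coinduced modules, for all large sets of places. -/
def BaseBrick (p : ℕ) [Fact p.Prime] : Prop :=
  p ≠ 2 → ∀ (F : IntermediateField ℚ Qbar) [FiniteDimensional ℚ F] [IsGalois ℚ F],
    (∀ γ ∈ F.fixingSubgroup, cycloChar p γ = 1) →
    ∃ S₀ : Finset Nat.Primes, ∀ S' : Finset Nat.Primes, S₀ ⊆ S' → pPrime p ∈ S' →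
      F.IsUnramifiedOutside S' →
      (∀ M : Rep.{0} (ZMod p) Γ, IsGood S' M → GlobalFin S' M) →
      (∀ M : Rep.{0} (ZMod p) Γ, IsGood S' M → GlobalTail S' M) →
      BaseIneq (p := p) F S'

/-- A finite Galois extension, unramified outside `S`, containing `μ_p` and trivialising `M`. -/
theorem exists_field {S : Finset Nat.Primes} (hpS : pPrime p ∈ S) {M : Rep.{0} (ZMod p) Γ}
    (hM : IsGood S M) :
    ∃ F : IntermediateField ℚ Qbar, F.IsUnramifiedOutside S ∧ IsGalois ℚ F ∧
      (∀ γ ∈ F.fixingSubgroup, cycloChar p γ = 1) ∧ ∀ s ∈ F.fixingSubgroup, M.ρ s = 1 := by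
  haveI := hM.fin
  obtain ⟨L, hLS, -, hL⟩ := exists_isUnramifiedOutside_forall_ρ_eq_one S M hM.smooth hM.unram
  have hK := Fermat.Agent.PT.BR.DualTwist7.isUnramifiedOutside_Kz p hpS
  obtain ⟨F, hle, hFG, hFS⟩ :=
    Fermat.Agent.PT.BR.UnramBridge13.exists_isGalois_isUnramifiedOutside (hLS.sup hK)
  refine ⟨F, hFS, hFG, fun γ hγ => ?_, fun s hs => ?_⟩
  · exact Fermat.Agent.PT.BR.DualTwist7.cycloChar_eq_one_of_mem_fixingSubgroup_Kz p
      (IntermediateField.fixingSubgroup_antitone (le_sup_right.trans hle) hγ)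
  · exact hL s (IntermediateField.fixingSubgroup_antitone (le_sup_left.trans hle) hs)

theorem ρ_eq_of_resF_eq (F : IntermediateField ℚ Qbar) [FiniteDimensional ℚ F] [IsGalois ℚ F]
    (M : Rep.{0} (ZMod p) Γ) (hFM : ∀ s ∈ F.fixingSubgroup, M.ρ s = 1) {x y : Γ}
    (h : resF F x = resF F y) : M.ρ x = M.ρ y := by
  have h1 : x⁻¹ * y ∈ F.fixingSubgroup := by
    rw [← resF_eq_one_iff, map_mul, map_inv, h, inv_mul_cancel]
  have h2 := hFM _ h1
  have h3 : M.ρ y = M.ρ x * M.ρ (x⁻¹ * y) := by rw [← map_mul, mul_inv_cancel_left]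
  rw [h3, h2, mul_one]

/-- Descent of a module trivialised by `Gal(ℚ̄/F)` to `Gal(F/ℚ)`. -/
noncomputable def descend (F : IntermediateField ℚ Qbar) [FiniteDimensional ℚ F] [IsGalois ℚ F]
    (M : Rep.{0} (ZMod p) Γ) (hFM : ∀ s ∈ F.fixingSubgroup, M.ρ s = 1) :
    Representation (ZMod p) (GalF F) M where
  toFun d := M.ρ (Function.surjInv (resF_surjective F) d)
  map_one' := by
    rw [← map_one M.ρ]
    apply ρ_eq_of_resF_eq F M hFM
    rw [Function.surjInv_eq (resF_surjective F), map_one]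
  map_mul' d d' := by
    rw [← map_mul M.ρ]
    apply ρ_eq_of_resF_eq F M hFM
    rw [map_mul, Function.surjInv_eq (resF_surjective F), Function.surjInv_eq (resF_surjective F),
      Function.surjInv_eq (resF_surjective F)]

theorem descend_resF (F : IntermediateField ℚ Qbar) [FiniteDimensional ℚ F] [IsGalois ℚ F]
    (M : Rep.{0} (ZMod p) Γ) (hFM : ∀ s ∈ F.fixingSubgroup, M.ρ s = 1) (g : Γ) :
    descend F M hFM (resF F g) = M.ρ g := by
  show M.ρ (Function.surjInv (resF_surjective F) (resF F g)) = M.ρ g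
  apply ρ_eq_of_resF_eq F M hFM
  rw [Function.surjInv_eq (resF_surjective F)]

/-- **Tate's global Euler characteristic formula for large sets of places**, from the bricks. -/
theorem tateStatement_of (hK0 : K0Statement p)
    (hDUAL : ∀ (F : IntermediateField ℚ Qbar) [FiniteDimensional ℚ F] [IsGalois ℚ F],
      DualCoind (p := p) F)
    (hBASE : BaseBrick p) : TateStatement p := by
  intro hp2 hFIN hSYM hTAIL S M hpS hM
  obtain ⟨F, hFS, hFG, hζ, hFM⟩ := exists_field hpS hM
  haveI := hFS.1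
  haveI := hFG
  haveI := hM.fin
  obtain ⟨S₀, hS₀⟩ := hBASE hp2 F hζ
  refine ⟨S₀, fun S' hSS' hS₀S' => ?_⟩
  have hpS' : pPrime p ∈ S' := hSS' hpS
  have hFS' : F.IsUnramifiedOutside S' := hFS.mono hSS'
  have hbase : BaseIneq (p := p) F S' :=
    hS₀ S' hS₀S' hpS' hFS' (fun X hX => hFIN S' X hpS' hX) (fun X hX => hTAIL S' X hpS' hX)
  have h0 := dT_infl_eq_zero hp2 hFS' hζ (fun X hX => hFIN S' X hpS' hX)
    (fun X hX => hSYM S' X hpS' hX) hK0 hbase (hDUAL F) M (descend F M hFM)
  -- `M` and the inflation of its descent are isomorphic (identity map)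
  have hcong : dT S' M = dT S' (infl F (descend F M hFM)) := by
    refine dT_congr S' (A := M) (B := infl F (descend F M hFM)) LinearMap.id (fun g a => ?_)
      Function.bijective_id
    show M.ρ g a = descend F M hFM (resF F g) a
    rw [descend_resF]
  rw [globalEulerLe_iff, hcong, h0]

end Fermat.Agent.TW.Tate62.TateFinal
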