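/-
TW programme (S56), brick C3-T4d (helper62): **the base inequality, core numerics.**

`F/ℚ` finite Galois, `ζ_p ∈ F`, unramified outside `S`, `S`-class group of `F` without `p`-torsion
(`hCl`), `C = ⟨c₀⟩ ≤ D = Gal(F/ℚ)` cyclic of order prime to `p`, `σ : C → GL(W)`,
`M = Ind_C^D σ` inflated to `Γ`.  Then Tate's inequality `GlobalEulerLe S M` follows from

* T3 (Shapiro, helper6) + T4a (Kummer bound, helper22):  `h¹(G_S, M) ≤ dim Hom_H(W^*(1), E_S/p)`;
* generator calculus: `= hom a (rhoUnitsD c₀)`, `a = σ^*(1)(c₀)`;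
* T4b (Dirichlet–Herbrand, helper5), in `hom` form;
* the explicit dual of a coinduced module (helper68);
* the bound of the places term by local invariants (T4c, helper6 + helper96);
* `GlobalTail S M` and `h⁰(ℝ, M) + h⁰(ℝ, M^*(1)) = dim M`.
-/
import Mathlib
import Fermat.Agent.TW.Tate62.Omega
import Fermat.Agent.TW.Tate62.GenCalc
import Fermat.Agent.TW.Tate62.TateFinal
import Fermat.Agent.TW.TateShap6.FixedField
import Fermat.Agent.TW.TateKum22.Units
import Fermat.Agent.TW.DirHerb5.AdaptersHom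
import Fermat.Agent.TW.DirHerb5.AdaptersPrimes
import Fermat.Agent.TW.DualCoind68
import Fermat.Agent.TW.Tate62.BasePlaces
import Fermat.Agent.TW.TateS06.Main

set_option autoImplicit false
set_option linter.unusedSectionVars false
set_option linter.style.haveILetI false
set_option synthInstance.maxHeartbeats 200000

open Module ExtCitation NumberField IsDedekindDomain

namespace Fermat.Agent.TW.Tate62.BaseCore

open Fermat.Agent.PT.PRO Fermat.Agent.PT.PRO.LevelCoh28 Fermat.Agent.PT.BR.LevelBridge13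
open Fermat.Agent.PT.GLOB
open Fermat.Agent.TW.GWIface97 Fermat.Agent.TW.GWIface2_97
open Fermat.Agent.TW.Tate62.DTate Fermat.Agent.TW.Tate62.KZero Fermat.Agent.TW.Tate62.Omega
open Fermat.Agent.TW.Tate62.GenCalc
open Fermat.Agent.TW.TateShap6 Fermat.Agent.TW.TateShap6.Main Fermat.Agent.TW.TateShap6.FixedField
open Fermat.Agent.TW.TateKum22.Units
open Fermat.Agent.TW.DirHerb5.SemisimpleConj Fermat.Agent.TW.DirHerb5.HomCalc
open Fermat.Agent.TW.DirHerb5.GaloisAction Fermat.Agent.TW.DirHerb5.AdaptersHom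
open Fermat.Agent.TW.DirHerb5.AdaptersPrimes Fermat.Agent.TW.DualCoind68
open Fermat.Agent.TW.Tate62.BasePlaces
open Fermat.Agent.S14.Fields (zeta zeta_spec)

local notation "Qbar" => AlgebraicClosure ℚ
local notation "Γ" => (AlgebraicClosure ℚ ≃ₐ[ℚ] AlgebraicClosure ℚ)

variable {p : ℕ} [hp : Fact p.Prime]

/-! ### Invariance of `h⁰` under equivariant isomorphisms -/

section Congr

theorem finrank_invariants_congr {k : Type*} [Field k] {G : Type*} [Group G] {A B : Type*}
    [AddCommGroup A] [Module k A] [AddCommGroup B] [Module k B] (ρA : Representation k G A)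
    (ρB : Representation k G B) (Φ : A →ₗ[k] B) (hΦ : ∀ g a, Φ (ρA g a) = ρB g (Φ a))
    (hbij : Function.Bijective Φ) : finrank k ρA.invariants = finrank k ρB.invariants := by
  let e : A ≃ₗ[k] B := LinearEquiv.ofBijective Φ hbij
  have h : ρA.invariants.map (e : A →ₗ[k] B) = ρB.invariants := by
    ext b
    rw [Submodule.mem_map]
    constructor
    · rintro ⟨a, ha, rfl⟩
      intro g
      show ρB g (Φ a) = Φ a
      rw [← hΦ, ha g]
    · intro hb
      obtain ⟨a, rfl⟩ := hbij.2 b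
      refine ⟨a, fun g => ?_, rfl⟩
      apply hbij.1
      rw [hΦ]
      exact hb g
  rw [← h]
  exact (LinearEquiv.finrank_map_eq e _).symm

variable {A B : Rep.{0} (ZMod p) Γ} (Φ : A →ₗ[ZMod p] B)
  (hΦ : ∀ g a, Φ (A.ρ g a) = B.ρ g (Φ a)) (hbij : Function.Bijective Φ)

include hΦ hbij in
theorem h0g_congr : h0g A = h0g B :=
  finrank_invariants_congr A.ρ B.ρ Φ hΦ hbij

include hΦ hbij in
theorem h0l_congr (q : Nat.Primes) : h0l q A = h0l q B :=
  finrank_invariants_congr (Rep.res (primeLocalToGlobal q) A).ρ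
    (Rep.res (primeLocalToGlobal q) B).ρ Φ (fun g a => hΦ (primeLocalToGlobal q g) a) hbij

include hΦ hbij in
theorem h0c_congr : h0c A = h0c B :=
  finrank_ker_sub_one_congr Φ hΦ hbij complexConjugation

end Congr

/-! ### Step 1: Shapiro + Kummer -/

section Kummer

variable (S : Finset Nat.Primes) (F : IntermediateField ℚ Qbar) [FiniteDimensional ℚ F]
  [IsGalois ℚ F] (C : Subgroup (GalF F)) {W : Type} [AddCommGroup W] [Module (ZMod p) W]
  [Module.Finite (ZMod p) W] (σ : Representation (ZMod p) C W)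

/-- `h¹(G_S, Ind_C^D σ) ≤ dim Hom_H(W^*(1), E_S(F)/p)`. -/
theorem kumStep (hF : F.IsUnramifiedOutside S)
    (hζ : ∀ γ ∈ F.fixingSubgroup, cycloChar p γ = 1)
    (hCl : ∀ x : (↥F)ˣ, (∀ P : Interface23.PrimeAway S ↥F,
        (p : ℤ) ∣ Interface23.ordAt ↥F P.1 x) →
      ∃ e ∈ (Interface23.divT S ↥F).ker, ∃ y : (↥F)ˣ, x = e * y ^ p)
    (hcop : (Nat.card C).Coprime p) :
    finrank (ZMod p) (H1g S (infl F (Representation.coind C.subtype σ))) ≤
      finrank (ZMod p) (Representation.linHom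
        ((modWK F C σ).dualTwist ((cycloChar p).comp (fixK F C).fixingSubgroup.subtype)).ρ
        (rhoUnits p S F (fixK F C))).invariants := by
  have h1 : finrank (ZMod p) (H1g S (infl F (Representation.coind C.subtype σ))) =
      finrank (ZMod p) (LevelCoh28.H1
        (pullBasisS (fixK F C).fixingSubgroup.subtype S) (modWK F C σ)) :=
    finrank_H1_fixK S F C σ hF
  rw [h1]
  exact Fermat.Agent.TW.TateKum22.Units.finrank_H1_le S F (fixK F C) (fixK_le F C) hF
    (zeta_spec p) (zeta_mem F hζ) (by rw [index_eq_card]; exact hcop) hCl (modWK F C σ)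
    (modWK_ρ_of_mem F C σ)

end Kummer

/-! ### Step 2: the generator form of the Kummer bound -/

section Generator

variable (S : Finset Nat.Primes) (F : IntermediateField ℚ Qbar) [FiniteDimensional ℚ F]
  [IsGalois ℚ F] (C : Subgroup (GalF F)) {W : Type} [AddCommGroup W] [Module (ZMod p) W]
  [Module.Finite (ZMod p) W] (σ : Representation (ZMod p) C W)
  (hζ : ∀ γ ∈ F.fixingSubgroup, cycloChar p γ = 1)

/-- The twisted dual `σ^*(1)` of `σ`, a representation of `C` on `W^*`. -/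
noncomputable abbrev sigmaD : Representation (ZMod p) C (Module.Dual (ZMod p) W) :=
  σ.dual.twist ((omegaD F hζ).comp C.subtype)

theorem sigmaD_apply (c : C) (f : Module.Dual (ZMod p) W) :
    sigmaD F C σ hζ c f =
      ((omegaD F hζ (c : GalF F) : (ZMod p)ˣ) : ZMod p) • (f ∘ₗ σ c⁻¹) := rfl

theorem dualTwist_modWK_eq :
    ((modWK F C σ).dualTwist ((cycloChar p).comp (fixK F C).fixingSubgroup.subtype)).ρ =
      ((sigmaD F C σ hζ).comp (toC F C) :
        Representation (ZMod p) ↥(fixK F C).fixingSubgroup (Module.Dual (ZMod p) W)) := by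
  apply MonoidHom.ext
  intro h
  apply LinearMap.ext
  intro f
  show ((cycloChar p (h : Γ) : (ZMod p)ˣ) : ZMod p) • (f ∘ₗ σ (toC F C h⁻¹)) =
    ((omegaD F hζ ((toC F C h : C) : GalF F) : (ZMod p)ˣ) : ZMod p) • (f ∘ₗ σ (toC F C h)⁻¹)
  rw [cycloChar_eq_omegaD F hζ, map_inv]
  rfl

theorem rhoUnits_fixK_eq :
    rhoUnits p S F (fixK F C) =
      ((((rhoUnitsD p S F).comp C.subtype :
        Representation (ZMod p) C _)).comp (toC F C) :
          Representation (ZMod p) ↥(fixK F C).fixingSubgroup _) := rfl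

/-- `dim Hom_H(W^*(1), E_S/p) = hom (σ^*(1) c₀) (c₀ on E_S/p)` for a generator `c₀` of `C`. -/
theorem finrank_invariants_eq_hom (c₀ : C) (hc₀ : ∀ c : C, c ∈ Subgroup.zpowers c₀) :
    finrank (ZMod p) (Representation.linHom
        ((modWK F C σ).dualTwist ((cycloChar p).comp (fixK F C).fixingSubgroup.subtype)).ρ
        (rhoUnits p S F (fixK F C))).invariants =
      hom (sigmaD F C σ hζ c₀) (rhoUnitsD p S F (c₀ : GalF F)) := by
  rw [dualTwist_modWK_eq F C σ hζ, rhoUnits_fixK_eq S F C]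
  exact finrank_invariants_linHom_comp (toC F C) (toC_surjective F C) c₀ hc₀
    (sigmaD F C σ hζ) ((rhoUnitsD p S F).comp C.subtype)

end Generator

/-! ### Step 3: the two kernels -/

section Kernels

variable (F : IntermediateField ℚ Qbar) [FiniteDimensional ℚ F]
  [IsGalois ℚ F] (C : Subgroup (GalF F)) {W : Type} [AddCommGroup W] [Module (ZMod p) W]
  [Module.Finite (ZMod p) W] (σ : Representation (ZMod p) C W)
  (hζ : ∀ γ ∈ F.fixingSubgroup, cycloChar p γ = 1)

/-- `dim ker (σ^*(1)(c₀) - ω(c₀)) = dim W^C`. -/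
theorem finrank_ker_sigmaD_sub_omega (c₀ : C) (hc₀ : ∀ c : C, c ∈ Subgroup.zpowers c₀) :
    finrank (ZMod p) (LinearMap.ker (sigmaD F C σ hζ c₀ -
      (((omegaD F hζ (c₀ : GalF F) : (ZMod p)ˣ) : ZMod p)) •
        (1 : End (ZMod p) (Module.Dual (ZMod p) W)))) =
      finrank (ZMod p) σ.invariants := by
  set ω₀ : (ZMod p)ˣ := omegaD F hζ (c₀ : GalF F) with hω₀
  have hne : ((ω₀ : (ZMod p)ˣ) : ZMod p) ≠ 0 := ω₀.ne_zero
  have h1 : LinearMap.ker (sigmaD F C σ hζ c₀ -
      ((ω₀ : (ZMod p)ˣ) : ZMod p) • (1 : End (ZMod p) (Module.Dual (ZMod p) W))) =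
      LinearMap.ker ((σ c₀⁻¹ - (1 : ZMod p) • (1 : End (ZMod p) W)).dualMap) := by
    ext f
    rw [LinearMap.mem_ker, LinearMap.mem_ker, LinearMap.sub_apply, sub_eq_zero,
      dualMap_sub_smul_one, LinearMap.sub_apply, sub_eq_zero, sigmaD_apply]
    show ((ω₀ : (ZMod p)ˣ) : ZMod p) • (f ∘ₗ σ c₀⁻¹) = ((ω₀ : (ZMod p)ˣ) : ZMod p) • f ↔
      f ∘ₗ σ c₀⁻¹ = (1 : ZMod p) • f
    rw [one_smul]
    constructor
    · intro h
      exact smul_right_injective _ hne h
    · intro h
      rw [h]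
  have h2 : LinearMap.ker (σ c₀⁻¹ - (1 : ZMod p) • (1 : End (ZMod p) W)) = σ.invariants := by
    rw [invariants_eq_ker c₀ hc₀ σ]
    ext w
    rw [LinearMap.mem_ker, LinearMap.mem_ker, LinearMap.sub_apply, LinearMap.sub_apply,
      sub_eq_zero, sub_eq_zero, one_smul, Module.End.one_apply]
    constructor
    · intro h
      have h' := congrArg (σ c₀) h
      rw [← Module.End.mul_apply, ← map_mul, mul_inv_cancel, map_one, Module.End.one_apply] at h'
      exact h'.symm
    · intro h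
      have h' := congrArg (σ c₀⁻¹) h
      rw [← Module.End.mul_apply, ← map_mul, inv_mul_cancel, map_one, Module.End.one_apply] at h'
      exact h'.symm
  rw [h1, finrank_ker_dualMap, h2]

/-- `dim ker (σ^*(1)(c₀) - 1) = dim (σ^*(1))^C`. -/
theorem finrank_ker_sigmaD_sub_one (c₀ : C) (hc₀ : ∀ c : C, c ∈ Subgroup.zpowers c₀) :
    finrank (ZMod p) (LinearMap.ker (sigmaD F C σ hζ c₀ - 1)) =
      finrank (ZMod p) (sigmaD F C σ hζ).invariants := by
  rw [invariants_eq_ker c₀ hc₀ (sigmaD F C σ hζ)]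

end Kernels

/-! ### Step 4: the base inequality from the bricks -/

section Main

variable (S : Finset Nat.Primes) (F : IntermediateField ℚ Qbar) [FiniteDimensional ℚ F]
  [IsGalois ℚ F] (C : Subgroup (GalF F)) {W : Type} [AddCommGroup W] [Module (ZMod p) W]
  [Module.Finite (ZMod p) W] (σ : Representation (ZMod p) C W)
  (hζ : ∀ γ ∈ F.fixingSubgroup, cycloChar p γ = 1)

/-- The module `Ind_C^D (σ^*(1))`, inflated to `Γ`. -/
noncomputable abbrev modD : Rep.{0} (ZMod p) Γ :=
  modM F C (sigmaD F C σ hζ)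

/-- The explicit isomorphism `M^*(1) ≅ Ind_C^D (σ^*(1))` (helper68's `dualCoindMap`). -/
theorem exists_dual_iso :
    ∃ Φ : dual (modM F C σ) →ₗ[ZMod p] modD F C σ hζ,
      (∀ g a, Φ ((dual (modM F C σ)).ρ g a) = (modD F C σ hζ).ρ g (Φ a)) ∧
        Function.Bijective Φ := by
  refine ⟨dualCoindMap C σ (omegaD F hζ), ?_, dualCoindMap_bijective C σ (omegaD F hζ)⟩
  intro g a
  have h := dualCoindMap_equivariant C σ (omegaD F hζ) (KZero.resF F g) a
  rw [← cycloChar_eq_omegaD F hζ g, ← map_inv] at h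
  exact h

include hζ in
set_option maxHeartbeats 800000 in
/-- **The base inequality** for `M = Ind_C^D σ`, `C = ⟨c₀⟩` of order prime to `p`. -/
theorem baseIneq_core (hp2 : p ≠ 2) (hF : F.IsUnramifiedOutside S)
    (hCl : ∀ x : (↥F)ˣ, (∀ P : Interface23.PrimeAway S ↥F,
        (p : ℤ) ∣ Interface23.ordAt ↥F P.1 x) →
      ∃ e ∈ (Interface23.divT S ↥F).ker, ∃ y : (↥F)ˣ, x = e * y ^ p)
    (hcop : (Nat.card C).Coprime p) (c₀ : C) (hc₀ : ∀ c : C, c ∈ Subgroup.zpowers c₀)
    (hTAIL : GlobalTail S (modM F C σ)) :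
    GlobalEulerLe S (modM F C σ) := by
  haveI : NeZero p := ⟨hp.out.ne_zero⟩
  haveI hfinD : Module.Finite (ZMod p) (Module.Dual (ZMod p) W) :=
    Subspace.instModuleDualFiniteDimensional (K := ZMod p) (V := W)
  haveI : FiniteDimensional (ZMod p) (modM F C σ) := finiteDimensional_modM F C σ
  obtain ⟨Φ, hΦ, hbij⟩ := exists_dual_iso F C σ hζ
  -- Kummer bound in generator form
  have h1 : finrank (ZMod p) (H1g S (modM F C σ)) ≤
      hom (sigmaD F C σ hζ c₀) (rhoUnitsD p S F (c₀ : GalF F)) := by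
    have := kumStep S F C σ hF hζ hCl hcop
    rwa [finrank_invariants_eq_hom S F C σ hζ c₀ hc₀] at this
  -- Dirichlet–Herbrand
  have hm : ¬ p ∣ Nat.card C := by
    intro hdvd
    have := Nat.Coprime.eq_one_of_dvd hcop.symm hdvd
    exact hp.out.one_lt.ne' this
  have hpow : (c₀ : GalF F) ^ Nat.card C = 1 := by
    have h := pow_card_eq_one' (G := C) (x := c₀)
    rw [← Subgroup.coe_pow, h]
    rfl
  have h3 := hom_formula_divT (k := ℚ) (↥F) S p (c₀ : GalF F) hm hpow
    (UnitsBridge24.unitsTSmul S ℚ ↥F (c₀ : GalF F))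
    (fun x => coe_coe_unitsTSmul S F (c₀ : GalF F) x)
    (rhoUnitsD p S F (c₀ : GalF F)) (rhoUnitsD_tmul p S F (c₀ : GalF F))
    (isPrimitiveRoot_zetaF F hζ) _ (apply_zetaF F hζ (c₀ : GalF F)) (sigmaD F C σ hζ c₀)
  rw [ZMod.natCast_zmod_val] at h3
  -- the two kernels
  have h4 := finrank_ker_sigmaD_sub_omega F C σ hζ c₀ hc₀
  have h4' : finrank (ZMod p) σ.invariants = h0g (modM F C σ) := (h0g_modM F C σ).symm
  have h5 := finrank_ker_sigmaD_sub_one F C σ hζ c₀ hc₀
  have h5' : finrank (ZMod p) (sigmaD F C σ hζ).invariants = h0g (dual (modM F C σ)) := by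
    rw [h0g_congr Φ hΦ hbij]
    exact (h0g_modM F C (sigmaD F C σ hζ)).symm
  -- places
  have h6 : finrank (ZMod p) (twFix (MulAction.toPerm (c₀ : GalF F) :
      Equiv.Perm (InfinitePlace ↥F)) (sigmaD F C σ hζ c₀)) ≤ h0c (dual (modM F C σ)) := by
    rw [h0c_congr Φ hΦ hbij]
    exact finrank_twFix_inf_le F C (sigmaD F C σ hζ) c₀ hc₀
  have h7 : (∑ q : ↥S, finrank (ZMod p) (twFix (permQ (k := ℚ) ↥F (c₀ : GalF F)
      ((q : Nat.Primes) : ℕ)) (sigmaD F C σ hζ c₀))) ≤ ∑ q : ↥S, h0l q.1 (dual (modM F C σ)) := by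
    apply Finset.sum_le_sum
    intro q _
    rw [h0l_congr Φ hΦ hbij q.1]
    exact finrank_twFix_Pq_le F C (sigmaD F C σ hζ) c₀ hc₀ q.1
  have h9 := h0c_add_h0c_dual hp2 (modM F C σ)
  unfold GlobalTail at hTAIL
  unfold GlobalEulerLe
  rw [h4, h5, h4', h5'] at h3
  omega

end Main

end Fermat.Agent.TW.Tate62.BaseCore
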