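/-
TW programme (S56), brick C3 (helper62): **Tate's global Euler characteristic formula** for all
sufficiently large sets of places, `GWIface2_97.TateStatement p`.

Assembly of
* `ArtinInd68.eq_zero_of_cyclic_coind` (helper68): Artin induction mod `p`;
* `DualCoindGal68.dualCoind` (helper68): the Tate dual of a coinduced module is coinduced;
* `BaseCore.baseIneq_core` (helper62, with T3 helper6, T4a helper22, T4b helper5,
  T4c helper6/helper96, T6 helper6): the inequality for `Ind_C^D σ`, `C` cyclic of order
  prime to `p`.
-/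
import Mathlib
import Fermat.Agent.TW.Tate62.BaseCore
import Fermat.Agent.TW.ArtinInd68
import Fermat.Agent.TW.DualCoindGal68

set_option autoImplicit false
set_option linter.unusedSectionVars false
set_option linter.style.haveILetI false
set_option synthInstance.maxHeartbeats 200000

open Module ExtCitation

namespace Fermat.Agent.TW.Tate62.Tate

open Fermat.Agent.TW.GWIface97 Fermat.Agent.TW.GWIface2_97
open Fermat.Agent.TW.Tate62.KZero Fermat.Agent.TW.Tate62.TateFinal
open Fermat.Agent.TW.Tate62.BaseCore
open Fermat.Agent.TW.TateShap6.Main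

local notation "Qbar" => AlgebraicClosure ℚ
local notation "Γ" => (AlgebraicClosure ℚ ≃ₐ[ℚ] AlgebraicClosure ℚ)

variable {p : ℕ} [Fact p.Prime]

/-- The base brick: Tate's inequality for the modules coinduced from cyclic subgroups of order
prime to `p`, for all large sets of places. -/
theorem baseBrick : BaseBrick p := by
  intro hp2 F _ _ hζ
  obtain ⟨S₀, hS₀⟩ := Fermat.Agent.TW.TateS06.Main.exists_S0 ↥F
  refine ⟨S₀, fun S' hS₀S' _ hF _ hTAIL => ?_⟩
  intro C hC hcop W _ _ _ σ
  obtain ⟨c₀, hc₀⟩ := hC.exists_generator
  have hgood : IsGood S' (modM F C σ) := isGood_modM S' F C σ hF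
  exact baseIneq_core S' F C σ hζ hp2 hF (fun x hx => hS₀ S' hS₀S' p x hx) hcop c₀ hc₀
    (hTAIL _ hgood)

/-- **(C3) Tate's global Euler characteristic formula for large sets of places.** -/
theorem tateStatement : TateStatement p :=
  tateStatement_of
    (fun _ _ _ f hf h V _ _ _ ρ => Fermat.Agent.TW.ArtinInd68.eq_zero_of_cyclic_coind f hf h V ρ)
    (fun F _ _ hζ C W _ _ _ σ => Fermat.Agent.TW.DualCoindGal68.dualCoind F hζ C W σ)
    baseBrick

end Fermat.Agent.TW.Tate62.Tate
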